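/-
P-S41 (level raising), package (3a) of note 335: the Ihara amalgam theorem, abstract part.

Ping-pong lemma for amalgamated products of two subgroups, on top of Mathlib's
`Monoid.PushoutI` normal-form theorem.

Main exports (namespace `Fermat.Agent.S41.Ihara`):
* `PingPongData S C Xs` : the hypotheses (two subgroups `S true`, `S false ≤ G`, `C ≤ S i`,
  two disjoint nonempty pieces `Xs true`, `Xs false` of a `G`-set).
* `PingPongData.prod_notMem` : a nonempty reduced product is not in `C`.
* `amalgamHom`, `amalgamHom_injective`, `amalgamHom_range`, `amalgamEquiv`.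
* `existsUnique_hom` : universal property of `S true ⊔ S false` (no `PushoutI` in the statement).
* `existsUnique_hom₂` : the same for two subgroups `A B` (family `fun b => cond b A B`).
-/
import Mathlib

namespace Fermat.Agent.S41.Ihara

open Monoid

section PingPong

variable {G : Type*} [Group G] {X : Type*} [MulAction G X]

/-- Ping-pong data for two subgroups `S true`, `S false` of `G` with common subgroup `C`,
acting on `X` with two disjoint nonempty pieces `Xs true`, `Xs false`. -/
structure PingPongData (S : Bool → Subgroup G) (C : Subgroup G) (Xs : Bool → Set X) : Prop where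
  le : ∀ i, C ≤ S i
  move : ∀ i, ∀ g ∈ S i, g ∉ C → ∀ x ∈ Xs (!i), g • x ∈ Xs i
  stay : ∀ i, ∀ g ∈ S i, g ∉ C → ∃ x ∈ Xs i, g • x ∈ Xs i
  base : ∀ i, ∀ c ∈ C, ∀ x ∈ Xs i, c • x ∈ Xs i
  disj : Disjoint (Xs true) (Xs false)
  nonempty : ∀ i, (Xs i).Nonempty

variable {S : Bool → Subgroup G} {C : Subgroup G} {Xs : Bool → Set X}

/-- A list of letters `(i, g)` is *reduced* if each `g ∈ S i \ C` and adjacent indices differ. -/
def IsReducedList (S : Bool → Subgroup G) (C : Subgroup G) (l : List (Bool × G)) : Prop :=
  (∀ a ∈ l, a.2 ∈ S a.1 ∧ a.2 ∉ C) ∧ l.IsChain (fun a b => a.1 ≠ b.1)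

theorem PingPongData.disj' (pp : PingPongData S C Xs) (i : Bool) {x : X}
    (h1 : x ∈ Xs i) (h2 : x ∈ Xs (!i)) : False := by
  cases i
  · exact (Set.disjoint_left.mp pp.disj) h2 h1
  · exact (Set.disjoint_left.mp pp.disj) h1 h2

theorem PingPongData.aux (pp : PingPongData S C Xs) :
    ∀ (l : List (Bool × G)) (a : Bool × G), IsReducedList S C (a :: l) →
      ∀ x ∈ Xs (!((a :: l).getLast (List.cons_ne_nil a l)).1),
        ((a :: l).map Prod.snd).prod • x ∈ Xs a.1 := by
  intro l
  induction l with
  | nil =>
    intro a h x hx
    simp only [List.getLast_singleton] at hx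
    simp only [List.map_cons, List.map_nil, List.prod_cons, List.prod_nil, mul_one]
    exact pp.move a.1 a.2 (h.1 a (by simp)).1 (h.1 a (by simp)).2 x hx
  | cons b l ih =>
    intro a h x hx
    have hb : IsReducedList S C (b :: l) :=
      ⟨fun c hc => h.1 c (List.mem_cons_of_mem _ hc), (List.isChain_cons_cons.mp h.2).2⟩
    have hab : a.1 ≠ b.1 := (List.isChain_cons_cons.mp h.2).1
    rw [List.getLast_cons (List.cons_ne_nil b l)] at hx
    have h1 := ih b hb x hx
    have hb' : b.1 = !a.1 := by
      cases ha : a.1 <;> cases hb1 : b.1 <;> simp_all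
    rw [hb'] at h1
    have : ((a :: b :: l).map Prod.snd).prod • x = a.2 • (((b :: l).map Prod.snd).prod • x) := by
      rw [List.map_cons, List.prod_cons, mul_smul]
    rw [this]
    exact pp.move a.1 a.2 (h.1 a (by simp)).1 (h.1 a (by simp)).2 _ h1

/-- Key ping-pong statement: a nonempty reduced product is not in `C`. -/
theorem PingPongData.prod_notMem (pp : PingPongData S C Xs) (l : List (Bool × G))
    (hl : IsReducedList S C l) (hne : l ≠ []) : (l.map Prod.snd).prod ∉ C := by
  intro hprod
  obtain ⟨a, l', rfl⟩ := List.exists_cons_of_ne_nil hne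
  by_cases hlast : ((a :: l').getLast (List.cons_ne_nil a l')).1 = a.1
  · -- first and last letters of the same type
    obtain ⟨x, hx⟩ := pp.nonempty (!a.1)
    have h1 := pp.aux l' a hl x (by rw [hlast]; exact hx)
    have h2 := pp.base (!a.1) _ hprod x hx
    exact pp.disj' a.1 h1 h2
  · -- different types
    cases l' with
    | nil => simp at hlast
    | cons b l =>
      have hb : IsReducedList S C (b :: l) :=
        ⟨fun c hc => hl.1 c (List.mem_cons_of_mem _ hc), (List.isChain_cons_cons.mp hl.2).2⟩
      have hab : a.1 ≠ b.1 := (List.isChain_cons_cons.mp hl.2).1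
      have hb' : b.1 = !a.1 := by
        cases ha : a.1 <;> cases hb1 : b.1 <;> simp_all
      rw [List.getLast_cons (List.cons_ne_nil b l)] at hlast
      have hlast' : ((b :: l).getLast (List.cons_ne_nil b l)).1 = !a.1 := by
        cases ha : a.1 <;> cases hb1 : ((b :: l).getLast (List.cons_ne_nil b l)).1 <;> simp_all
      have haS := (hl.1 a (by simp)).1
      have haC := (hl.1 a (by simp)).2
      set q := ((b :: l).map Prod.snd).prod with hq
      have hprod' : a.2 * q ∈ C := by
        have : ((a :: b :: l).map Prod.snd).prod = a.2 * q := by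
          rw [List.map_cons, List.prod_cons]
        rw [← this]; exact hprod
      have hqS : q ∈ S a.1 := by
        have : q = a.2⁻¹ * (a.2 * q) := by group
        rw [this]
        exact (S a.1).mul_mem ((S a.1).inv_mem haS) (pp.le a.1 hprod')
      have hqC : q ∉ C := by
        intro hqC
        apply haC
        have : a.2 = (a.2 * q) * q⁻¹ := by group
        rw [this]
        exact C.mul_mem hprod' (C.inv_mem hqC)
      obtain ⟨x, hx, hx'⟩ := pp.stay a.1 q hqS hqC
      have h1 := pp.aux l b hb x (by rw [hlast']; simpa using hx)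
      rw [hb'] at h1
      exact pp.disj' a.1 hx' h1

end PingPong

section Pushout

variable {G : Type*} [Group G]

/-- The inclusions `C → S i`. -/
def inclFam (S : Bool → Subgroup G) (C : Subgroup G) (hC : ∀ i, C ≤ S i) (i : Bool) :
    ↥C →* ↥(S i) := Subgroup.inclusion (hC i)

theorem inclFam_injective (S : Bool → Subgroup G) (C : Subgroup G) (hC : ∀ i, C ≤ S i) (i : Bool) :
    Function.Injective (inclFam S C hC i) := Subgroup.inclusion_injective (hC i)

/-- The canonical map from the amalgamated product `S true *_C S false` to `G`. -/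
def amalgamHom (S : Bool → Subgroup G) (C : Subgroup G) (hC : ∀ i, C ≤ S i) :
    PushoutI (inclFam S C hC) →* G :=
  PushoutI.lift (fun i => (S i).subtype) C.subtype (fun _ => MonoidHom.ext fun _ => rfl)

variable {S : Bool → Subgroup G} {C : Subgroup G} (hC : ∀ i, C ≤ S i)

@[simp] theorem amalgamHom_of (i : Bool) (g : ↥(S i)) :
    amalgamHom S C hC (PushoutI.of i g) = (g : G) := by
  rw [amalgamHom, PushoutI.lift_of]; rfl

@[simp] theorem amalgamHom_base (c : ↥C) :
    amalgamHom S C hC (PushoutI.base _ c) = (c : G) := by
  rw [amalgamHom, PushoutI.lift_base]; rfl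

theorem amalgamHom_ofCoprodI_prod (w : CoprodI.Word (fun i => ↥(S i))) :
    amalgamHom S C hC (PushoutI.ofCoprodI w.prod) =
      ((w.toList.map (fun l => ((l.1, (l.2 : G)) : Bool × G))).map Prod.snd).prod := by
  rw [CoprodI.Word.prod, map_list_prod, map_list_prod, List.map_map, List.map_map, List.map_map]
  congr 1

theorem amalgamHom_range : (amalgamHom S C hC).range = S true ⊔ S false := by
  apply le_antisymm
  · rintro _ ⟨x, rfl⟩
    induction x using PushoutI.induction_on with
    | of i g =>
      rw [amalgamHom_of]
      cases i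
      · exact (le_sup_right : S false ≤ S true ⊔ S false) g.2
      · exact (le_sup_left : S true ≤ S true ⊔ S false) g.2
    | base c =>
      rw [amalgamHom_base]
      exact (le_sup_left : S true ≤ S true ⊔ S false) (hC true c.2)
    | mul x y hx hy =>
      rw [map_mul]; exact Subgroup.mul_mem _ hx hy
  · rw [sup_le_iff]
    constructor
    · intro g hg
      exact ⟨PushoutI.of true ⟨g, hg⟩, by simp⟩
    · intro g hg
      exact ⟨PushoutI.of false ⟨g, hg⟩, by simp⟩

variable {X : Type*} [MulAction G X] {Xs : Bool → Set X}

open Classical in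
theorem amalgamHom_injective (pp : PingPongData S C Xs) :
    Function.Injective (amalgamHom S C pp.le) := by
  rw [injective_iff_map_eq_one]
  intro x hx
  obtain ⟨d⟩ := PushoutI.NormalWord.transversal_nonempty (inclFam S C pp.le) (inclFam_injective S C pp.le)
  set w : PushoutI.NormalWord d := PushoutI.NormalWord.equiv x with hw
  have hxw : x = w.prod := (PushoutI.NormalWord.equiv.symm_apply_apply x).symm
  rw [hxw, PushoutI.NormalWord.prod, map_mul, amalgamHom_base, amalgamHom_ofCoprodI_prod] at hx
  set l : List (Bool × G) := w.toList.map (fun l => ((l.1, (l.2 : G)) : Bool × G)) with hl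
  have hred : IsReducedList S C l := by
    constructor
    · intro a ha
      rw [hl, List.mem_map] at ha
      obtain ⟨s, hs, rfl⟩ := ha
      refine ⟨s.2.2, ?_⟩
      intro hsC
      -- `s.2` is in the transversal and in the range of the inclusion, hence `1`
      have hset := w.normalized s.1 s.2 (by cases s; exact hs)
      have hrange : s.2 ∈ (inclFam S C pp.le s.1).range := ⟨⟨(s.2 : G), hsC⟩, by ext; rfl⟩
      have hcompl := d.compl s.1
      have h1 := d.one_mem s.1
      have := (Subgroup.isComplement_iff_existsUnique.mp hcompl s.2).unique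
        (y₁ := (⟨⟨s.2, hrange⟩, ⟨1, h1⟩⟩ : _ × _))
        (y₂ := (⟨⟨1, Subgroup.one_mem _⟩, ⟨s.2, hset⟩⟩ : _ × _)) (by simp) (by simp)
      have h2 : s.2 = 1 := by
        have := congrArg (fun z => (z.2 : ↥(S s.1))) this
        simpa using this.symm
      exact w.ne_one s hs h2
    · rw [hl, List.isChain_map]
      exact w.chain_ne
  by_cases hnil : l = []
  · have hnil' : w.toList = [] := by simpa [hl] using hnil
    rw [hnil] at hx
    simp only [List.map_nil, List.prod_nil, mul_one] at hx
    have hhead : w.head = 1 := Subtype.ext hx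
    rw [hxw, PushoutI.NormalWord.prod, hhead, map_one, one_mul, CoprodI.Word.prod, hnil']
    simp
  · exfalso
    apply pp.prod_notMem l hred hnil
    have : (l.map Prod.snd).prod = ((w.head : G))⁻¹ := by
      rw [eq_inv_iff_mul_eq_one, ← hx]
      have h1 : (List.map Prod.snd l).prod = ((w.head : G))⁻¹ := eq_inv_of_mul_eq_one_right hx
      rw [h1]; group
    rw [this]
    exact C.inv_mem w.head.2

end Pushout

section Universal

variable {G : Type*} [Group G] {S : Bool → Subgroup G} {C : Subgroup G}
variable {X : Type*} [MulAction G X] {Xs : Bool → Set X}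

/-- The amalgamated product is isomorphic to the subgroup generated by the two factors. -/
noncomputable def amalgamEquiv (pp : PingPongData S C Xs) :
    PushoutI (inclFam S C pp.le) ≃* ↥(S true ⊔ S false) :=
  MulEquiv.ofBijective
    ((amalgamHom S C pp.le).codRestrict (S true ⊔ S false) (fun x => by
      rw [← amalgamHom_range pp.le]; exact ⟨x, rfl⟩))
    ⟨fun x y h => amalgamHom_injective pp (by
        have := congrArg Subtype.val h
        simpa using this),
     fun ⟨y, hy⟩ => by
        rw [← amalgamHom_range pp.le] at hy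
        obtain ⟨x, rfl⟩ := hy
        exact ⟨x, rfl⟩⟩

@[simp] theorem amalgamEquiv_apply_coe (pp : PingPongData S C Xs)
    (x : PushoutI (inclFam S C pp.le)) :
    ((amalgamEquiv pp x : ↥(S true ⊔ S false)) : G) = amalgamHom S C pp.le x := rfl

theorem le_sup_fam (S : Bool → Subgroup G) (i : Bool) : S i ≤ S true ⊔ S false := by
  cases i
  · exact le_sup_right
  · exact le_sup_left

/-- **Universal property of the amalgam**, stated without `PushoutI`: homomorphisms out of the
two factors that agree on `C` glue uniquely to a homomorphism out of the subgroup generated. -/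
theorem existsUnique_hom (pp : PingPongData S C Xs) {H : Type*} [Group H]
    (f : ∀ i, ↥(S i) →* H)
    (hf : ∀ c : ↥C, f true (Subgroup.inclusion (pp.le true) c) =
      f false (Subgroup.inclusion (pp.le false) c)) :
    ∃! F : ↥(S true ⊔ S false) →* H,
      ∀ i (g : ↥(S i)), F (Subgroup.inclusion (le_sup_fam S i) g) = f i g := by
  have hcompat : ∀ i, (f i).comp (inclFam S C pp.le i) = (f true).comp (inclFam S C pp.le true) := by
    intro i
    cases i
    · ext c; exact (hf c).symm
    · rfl
  let L : PushoutI (inclFam S C pp.le) →* H :=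
    PushoutI.lift f ((f true).comp (inclFam S C pp.le true)) hcompat
  have hL_of : ∀ i (g : ↥(S i)), L (PushoutI.of i g) = f i g := fun i g =>
    PushoutI.lift_of f ((f true).comp (inclFam S C pp.le true)) hcompat g
  have hL_base : ∀ c : ↥C, L (PushoutI.base _ c) = f true (inclFam S C pp.le true c) := fun c =>
    PushoutI.lift_base f ((f true).comp (inclFam S C pp.le true)) hcompat c
  clear_value L
  refine ⟨L.comp (amalgamEquiv pp).symm.toMonoidHom, ?_, ?_⟩
  · intro i g
    have : (amalgamEquiv pp).symm (Subgroup.inclusion (le_sup_fam S i) g) = PushoutI.of i g := by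
      rw [MulEquiv.symm_apply_eq]
      apply Subtype.ext
      simp
    simp only [MonoidHom.coe_comp, MulEquiv.coe_toMonoidHom, Function.comp_apply, this]
    exact hL_of i g
  · intro F hF
    have : F.comp (amalgamEquiv pp).toMonoidHom = L := by
      apply PushoutI.hom_ext
      · intro i
        ext g
        have h1 : amalgamEquiv pp (PushoutI.of i g) = Subgroup.inclusion (le_sup_fam S i) g := by
          apply Subtype.ext; simp
        simp only [MonoidHom.coe_comp, MulEquiv.coe_toMonoidHom, Function.comp_apply, h1, hF]
        exact (hL_of i g).symm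
      · ext c
        have h1 : amalgamEquiv pp (PushoutI.base _ c) =
            Subgroup.inclusion (le_sup_fam S true) (Subgroup.inclusion (pp.le true) c) := by
          apply Subtype.ext; simp
        simp only [MonoidHom.coe_comp, MulEquiv.coe_toMonoidHom, Function.comp_apply, h1, hF]
        exact (hL_base c).symm
    rw [← this]
    ext x
    simp

end Universal

section Two

variable {G : Type*} [Group G] {A B C : Subgroup G}
variable {X : Type*} [MulAction G X] {Xs : Bool → Set X}

/-- Two-subgroup form of the universal property of the amalgam. -/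
theorem existsUnique_hom₂ (pp : PingPongData (fun b => cond b A B) C Xs) {H : Type*} [Group H]
    (f : ↥A →* H) (g : ↥B →* H)
    (hfg : ∀ c (hc : c ∈ C), f ⟨c, pp.le true hc⟩ = g ⟨c, pp.le false hc⟩) :
    ∃! F : ↥(A ⊔ B) →* H,
      (∀ a : ↥A, F ⟨a, Subgroup.mem_sup_left a.2⟩ = f a) ∧
      (∀ b : ↥B, F ⟨b, Subgroup.mem_sup_right b.2⟩ = g b) := by
  let ff : ∀ i : Bool, ↥((fun b => cond b A B) i) →* H :=
    fun i => Bool.rec (motive := fun i => ↥((fun b => cond b A B) i) →* H) g f i
  obtain ⟨F, hF, huniq⟩ := existsUnique_hom pp ff (fun c => hfg c.1 c.2)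
  refine ⟨F, ⟨fun a => hF true a, fun b => hF false b⟩, ?_⟩
  intro F' hF'
  apply huniq
  intro i x
  cases i
  · exact hF'.2 x
  · exact hF'.1 x

end Two

end Fermat.Agent.S41.Ihara
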