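/-
P-S41 (level raising), block (B4a): the Ihara amalgam theorem, concrete part.

For a prime `p` and `N` coprime to `p`, inside `SL(2,ℚ)`:
* `castQ : SL(2,ℤ) →* SL(2,ℚ)`, `conjD p : SL(2,ℚ) →* SL(2,ℚ)`, `[[a,b],[c,d]] ↦ [[a, b/p],[p c, d]]`
  (conjugation by `diag(1,p)`);
* `GA N` = image of `Γ₀(N)`, `GB N p = conjD p (GA N)`, `GC N p` = image of `Γ₀(Np)`;
* `GammaS N p := GA N ⊔ GB N p`, and `mem_GammaS_iff` : `g ∈ GammaS N p ↔ IsGammaEntry N p g`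
  (some `p^k • g` is an integral matrix with lower-left entry divisible by `N`), i.e.
  `GammaS N p = Γ₀(N)[1/p] ⊆ SL₂(ℤ[1/p])`; `GammaEntry N p` is the same subgroup defined by entries
  (`GammaS_eq_GammaEntry`); in particular `GammaEntry 1 p = SL₂(ℤ[1/p])`.
* `pingPongData` : the ping-pong table on `ℚ²` for the `p`-adic norm;
* `j1 j2 : Γ₀(N) →* GammaS N p` and the consumer theorem `ihara_amalgam`.
-/
import Mathlib
import Fermat.Agent.S41.Ihara.PingPong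

namespace Fermat.Agent.S41.Ihara.Amalgam

open Matrix CongruenceSubgroup

local notation "SL(" n ", " R ")" => Matrix.SpecialLinearGroup (Fin n) R

/-! ### p-adic norm helpers -/

section Norm

variable (p : ℕ) [hp : Fact p.Prime]

local notation "‖" x "‖ₚ" => padicNorm p x

theorem pn_add_eq_of_lt {a b : ℚ} (h : ‖a‖ₚ < ‖b‖ₚ) : ‖a + b‖ₚ = ‖b‖ₚ := by
  rw [padicNorm.add_eq_max_of_ne (ne_of_lt h), max_eq_right (le_of_lt h)]

theorem pn_add_eq_of_lt' {a b : ℚ} (h : ‖b‖ₚ < ‖a‖ₚ) : ‖a + b‖ₚ = ‖a‖ₚ := by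
  rw [add_comm]; exact pn_add_eq_of_lt p h

theorem pn_add_le {a b c : ℚ} (ha : ‖a‖ₚ ≤ c) (hb : ‖b‖ₚ ≤ c) : ‖a + b‖ₚ ≤ c :=
  le_trans padicNorm.nonarchimedean (max_le ha hb)

theorem pn_mul_le {a x : ℚ} (ha : ‖a‖ₚ ≤ 1) : ‖a * x‖ₚ ≤ ‖x‖ₚ := by
  rw [padicNorm.mul]
  calc ‖a‖ₚ * ‖x‖ₚ ≤ 1 * ‖x‖ₚ := mul_le_mul_of_nonneg_right ha (padicNorm.nonneg _)
    _ = ‖x‖ₚ := one_mul _

theorem pn_mul_eq {a x : ℚ} (ha : ‖a‖ₚ = 1) : ‖a * x‖ₚ = ‖x‖ₚ := by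
  rw [padicNorm.mul, ha, one_mul]

theorem pn_p : ‖(p : ℚ)‖ₚ = (p : ℚ)⁻¹ := padicNorm.padicNorm_p hp.out.one_lt

theorem p_pos : (0 : ℚ) < p := by exact_mod_cast hp.out.pos

theorem one_lt_p : (1 : ℚ) < p := by exact_mod_cast hp.out.one_lt

theorem inv_p_lt_one : (p : ℚ)⁻¹ < 1 := inv_lt_one_of_one_lt₀ (one_lt_p p)

theorem pn_int_dvd {m : ℤ} (h : (p : ℤ) ∣ m) : ‖(m : ℚ)‖ₚ ≤ (p : ℚ)⁻¹ := by
  obtain ⟨k, rfl⟩ := h
  push_cast
  rw [padicNorm.mul, pn_p]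
  calc (p : ℚ)⁻¹ * ‖(k : ℚ)‖ₚ ≤ (p : ℚ)⁻¹ * 1 :=
        mul_le_mul_of_nonneg_left (padicNorm.of_int k) (inv_nonneg.mpr (p_pos p).le)
    _ = (p : ℚ)⁻¹ := mul_one _

theorem pn_mul_le_inv {c x : ℚ} (hc : ‖c‖ₚ ≤ (p : ℚ)⁻¹) : ‖c * x‖ₚ ≤ (p : ℚ)⁻¹ * ‖x‖ₚ := by
  rw [padicNorm.mul]
  exact mul_le_mul_of_nonneg_right hc (padicNorm.nonneg _)

theorem pn_pos_of_ne {x : ℚ} (hx : x ≠ 0) : 0 < ‖x‖ₚ :=
  lt_of_le_of_ne (padicNorm.nonneg _) (Ne.symm (padicNorm.nonzero hx))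

theorem ne_zero_of_pn_pos {x : ℚ} (hx : 0 < ‖x‖ₚ) : x ≠ 0 := by
  rintro rfl; simp at hx

theorem inv_mul_lt {t : ℚ} (ht : 0 < t) : (p : ℚ)⁻¹ * t < t := by
  calc (p : ℚ)⁻¹ * t < 1 * t := mul_lt_mul_of_pos_right (inv_p_lt_one p) ht
    _ = t := one_mul _

/-- (A∖C) maps `X_B` into `X_A`. -/
theorem pp_L1 {a b c d x y : ℚ} (ha : ‖a‖ₚ ≤ 1) (hb : ‖b‖ₚ ≤ 1) (hc : ‖c‖ₚ = 1)
    (hd : ‖d‖ₚ ≤ 1) (h : ‖y‖ₚ < ‖x‖ₚ) :
    ‖a * x + b * y‖ₚ ≤ ‖c * x + d * y‖ₚ ∧ c * x + d * y ≠ 0 := by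
  have h1 : ‖c * x + d * y‖ₚ = ‖x‖ₚ := by
    rw [pn_add_eq_of_lt' p, pn_mul_eq p hc]
    rw [pn_mul_eq p hc]
    exact lt_of_le_of_lt (pn_mul_le p hd) h
  have hx : 0 < ‖x‖ₚ := lt_of_le_of_lt (padicNorm.nonneg _) h
  refine ⟨?_, ?_⟩
  · rw [h1]
    exact pn_add_le p (pn_mul_le p ha) (le_trans (pn_mul_le p hb) h.le)
  · apply ne_zero_of_pn_pos p; rw [h1]; exact hx

/-- (B∖C) maps `X_A` into `X_B`. -/
theorem pp_L2 {a b c d x y : ℚ} (ha : ‖a‖ₚ ≤ 1) (hb : ‖b‖ₚ = p) (hc : ‖c‖ₚ ≤ (p : ℚ)⁻¹)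
    (hd : ‖d‖ₚ ≤ 1) (h : ‖x‖ₚ ≤ ‖y‖ₚ) (hy : y ≠ 0) :
    ‖c * x + d * y‖ₚ < ‖a * x + b * y‖ₚ := by
  have hy' : 0 < ‖y‖ₚ := pn_pos_of_ne p hy
  have hby : ‖b * y‖ₚ = p * ‖y‖ₚ := by rw [padicNorm.mul, hb]
  have hlt : ‖y‖ₚ < p * ‖y‖ₚ := by
    calc ‖y‖ₚ = 1 * ‖y‖ₚ := (one_mul _).symm
      _ < p * ‖y‖ₚ := mul_lt_mul_of_pos_right (one_lt_p p) hy'
  have h1 : ‖a * x + b * y‖ₚ = p * ‖y‖ₚ := by
    rw [pn_add_eq_of_lt p, hby]
    rw [hby]
    exact lt_of_le_of_lt (le_trans (pn_mul_le p ha) h) hlt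
  rw [h1]
  refine lt_of_le_of_lt ?_ hlt
  apply pn_add_le p
  · refine le_trans (pn_mul_le_inv p hc) ?_
    refine le_trans ?_ h
    by_cases hx : x = 0
    · subst hx; simp
    · exact (inv_mul_lt p (pn_pos_of_ne p hx)).le
  · exact pn_mul_le p hd

/-- `C` preserves `X_A`. -/
theorem pp_L3 {a b c d x y : ℚ} (ha : ‖a‖ₚ ≤ 1) (hb : ‖b‖ₚ ≤ 1) (hc : ‖c‖ₚ ≤ (p : ℚ)⁻¹)
    (hd : ‖d‖ₚ = 1) (h : ‖x‖ₚ ≤ ‖y‖ₚ) (hy : y ≠ 0) :
    ‖a * x + b * y‖ₚ ≤ ‖c * x + d * y‖ₚ ∧ c * x + d * y ≠ 0 := by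
  have hy' : 0 < ‖y‖ₚ := pn_pos_of_ne p hy
  have h1 : ‖c * x + d * y‖ₚ = ‖y‖ₚ := by
    rw [pn_add_eq_of_lt p, pn_mul_eq p hd]
    rw [pn_mul_eq p hd]
    refine lt_of_le_of_lt (pn_mul_le_inv p hc) ?_
    refine lt_of_le_of_lt ?_ (inv_mul_lt p hy')
    exact mul_le_mul_of_nonneg_left h (inv_nonneg.mpr (p_pos p).le)
  refine ⟨?_, ?_⟩
  · rw [h1]
    exact pn_add_le p (le_trans (pn_mul_le p ha) h) (pn_mul_le p hb)
  · apply ne_zero_of_pn_pos p; rw [h1]; exact hy'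

/-- `C` preserves `X_B`. -/
theorem pp_L4 {a b c d x y : ℚ} (ha : ‖a‖ₚ = 1) (hb : ‖b‖ₚ ≤ 1) (hc : ‖c‖ₚ ≤ (p : ℚ)⁻¹)
    (hd : ‖d‖ₚ ≤ 1) (h : ‖y‖ₚ < ‖x‖ₚ) :
    ‖c * x + d * y‖ₚ < ‖a * x + b * y‖ₚ := by
  have hx : 0 < ‖x‖ₚ := lt_of_le_of_lt (padicNorm.nonneg _) h
  have h1 : ‖a * x + b * y‖ₚ = ‖x‖ₚ := by
    rw [pn_add_eq_of_lt' p, pn_mul_eq p ha]
    rw [pn_mul_eq p ha]
    exact lt_of_le_of_lt (pn_mul_le p hb) h
  rw [h1]
  have : ‖c * x + d * y‖ₚ ≤ max ((p : ℚ)⁻¹ * ‖x‖ₚ) ‖y‖ₚ :=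
    le_trans padicNorm.nonarchimedean (max_le_max (pn_mul_le_inv p hc) (pn_mul_le p hd))
  exact lt_of_le_of_lt this (max_lt (inv_mul_lt p hx) h)

end Norm


/-! ### The groups -/

/-- The inclusion `SL(2,ℤ) → SL(2,ℚ)`. -/
def castQ : SL(2, ℤ) →* SL(2, ℚ) := Matrix.SpecialLinearGroup.map (Int.castRingHom ℚ)

@[simp] theorem castQ_apply (g : SL(2, ℤ)) (i j : Fin 2) : (castQ g) i j = ((g i j : ℤ) : ℚ) := by
  simp [castQ]

theorem castQ_injective : Function.Injective castQ := by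
  intro g h hgh
  ext i j
  have := congrArg (fun m : SL(2, ℚ) => m i j) hgh
  simpa using this

/-- Underlying function of conjugation by `diag(1,p)`:
`[[a,b],[c,d]] ↦ [[a, b/p],[p c, d]]`. -/
def conjDFun (p : ℕ) [NeZero p] (g : SL(2, ℚ)) : SL(2, ℚ) :=
  ⟨!![g 0 0, g 0 1 / p; p * g 1 0, g 1 1], by
    have hp : (p : ℚ) ≠ 0 := Nat.cast_ne_zero.mpr (NeZero.ne p)
    have hdet := g.det_coe
    rw [Matrix.det_fin_two] at hdet
    rw [Matrix.det_fin_two_of]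
    field_simp
    linarith⟩

theorem conjDFun_apply (p : ℕ) [NeZero p] (g : SL(2, ℚ)) :
    ((conjDFun p g : SL(2, ℚ)) : Matrix (Fin 2) (Fin 2) ℚ) =
      !![g 0 0, g 0 1 / p; p * g 1 0, g 1 1] := rfl

/-- Conjugation by `diag(1,p)` as a group homomorphism of `SL(2,ℚ)`. -/
def conjD (p : ℕ) [NeZero p] : SL(2, ℚ) →* SL(2, ℚ) where
  toFun := conjDFun p
  map_one' := by
    ext i j
    fin_cases i <;> fin_cases j <;> simp [conjDFun_apply]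
  map_mul' g h := by
    have hp : (p : ℚ) ≠ 0 := Nat.cast_ne_zero.mpr (NeZero.ne p)
    ext i j
    fin_cases i <;> fin_cases j <;>
      simp [conjDFun_apply, Matrix.mul_apply, Fin.sum_univ_two] <;> field_simp <;> ring

@[simp] theorem conjD_00 (p : ℕ) [NeZero p] (g : SL(2, ℚ)) : (conjD p g) 0 0 = g 0 0 := rfl
@[simp] theorem conjD_01 (p : ℕ) [NeZero p] (g : SL(2, ℚ)) : (conjD p g) 0 1 = g 0 1 / p := rfl
@[simp] theorem conjD_10 (p : ℕ) [NeZero p] (g : SL(2, ℚ)) : (conjD p g) 1 0 = p * g 1 0 := rfl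
@[simp] theorem conjD_11 (p : ℕ) [NeZero p] (g : SL(2, ℚ)) : (conjD p g) 1 1 = g 1 1 := rfl

theorem conjD_injective (p : ℕ) [NeZero p] : Function.Injective (conjD p) := by
  have hp : (p : ℚ) ≠ 0 := Nat.cast_ne_zero.mpr (NeZero.ne p)
  intro g h hgh
  ext i j
  have h00 := congrArg (fun m : SL(2, ℚ) => m 0 0) hgh
  have h01 := congrArg (fun m : SL(2, ℚ) => m 0 1) hgh
  have h10 := congrArg (fun m : SL(2, ℚ) => m 1 0) hgh
  have h11 := congrArg (fun m : SL(2, ℚ) => m 1 1) hgh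
  simp only [conjD_00, conjD_01, conjD_10, conjD_11] at h00 h01 h10 h11
  fin_cases i <;> fin_cases j
  · exact h00
  · simpa using (div_left_inj' hp).mp h01
  · simpa using mul_left_cancel₀ hp h10
  · exact h11

/-- The three subgroups of `SL(2,ℚ)`. -/
def GA (N : ℕ) : Subgroup SL(2, ℚ) := (Gamma0 N).map castQ

def GB (N p : ℕ) [NeZero p] : Subgroup SL(2, ℚ) := (GA N).map (conjD p)

def GC (N p : ℕ) : Subgroup SL(2, ℚ) := (Gamma0 (N * p)).map castQ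

/-- The family `true ↦ GA`, `false ↦ GB`. -/
def SFam (N p : ℕ) [NeZero p] : Bool → Subgroup SL(2, ℚ) := fun b => cond b (GA N) (GB N p)

/-- The linear action of `SL(2,ℚ)` on `ℚ²` (as a `def`, to be used with `letI`). -/
@[reducible] def vecAction : MulAction SL(2, ℚ) (Fin 2 → ℚ) where
  smul g v := g.1 *ᵥ v
  one_smul v := by show (1 : SL(2, ℚ)).1 *ᵥ v = v; simp
  mul_smul g h v := by
    show (g * h).1 *ᵥ v = g.1 *ᵥ (h.1 *ᵥ v)
    rw [Matrix.SpecialLinearGroup.coe_mul, Matrix.mulVec_mulVec]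

theorem vecAction_smul_0 (g : SL(2, ℚ)) (v : Fin 2 → ℚ) :
    (vecAction.smul g v) 0 = g 0 0 * v 0 + g 0 1 * v 1 := by
  show (g.1 *ᵥ v) 0 = _
  simp [Matrix.mulVec, dotProduct, Fin.sum_univ_two]

theorem vecAction_smul_1 (g : SL(2, ℚ)) (v : Fin 2 → ℚ) :
    (vecAction.smul g v) 1 = g 1 0 * v 0 + g 1 1 * v 1 := by
  show (g.1 *ᵥ v) 1 = _
  simp [Matrix.mulVec, dotProduct, Fin.sum_univ_two]

theorem mem_Gamma0_iff_dvd {N : ℕ} {γ : SL(2, ℤ)} : γ ∈ Gamma0 N ↔ (N : ℤ) ∣ γ 1 0 := by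
  rw [Gamma0_mem, ZMod.intCast_zmod_eq_zero_iff_dvd]

/-- Build an element of `SL(2,ℤ)` from integer entries and a rational determinant identity. -/
def mkSL (a b c d : ℤ) (h : a * d - b * c = 1) : SL(2, ℤ) :=
  ⟨!![a, b; c, d], by rw [Matrix.det_fin_two_of]; exact h⟩

@[simp] theorem mkSL_00 (a b c d : ℤ) (h : a * d - b * c = 1) : (mkSL a b c d h) 0 0 = a := rfl
@[simp] theorem mkSL_01 (a b c d : ℤ) (h : a * d - b * c = 1) : (mkSL a b c d h) 0 1 = b := rfl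
@[simp] theorem mkSL_10 (a b c d : ℤ) (h : a * d - b * c = 1) : (mkSL a b c d h) 1 0 = c := rfl
@[simp] theorem mkSL_11 (a b c d : ℤ) (h : a * d - b * c = 1) : (mkSL a b c d h) 1 1 = d := rfl

theorem det_eq_one (g : SL(2, ℚ)) : g 0 0 * g 1 1 - g 0 1 * g 1 0 = 1 := by
  have := g.det_coe
  rwa [Matrix.det_fin_two] at this

theorem mem_GA_iff {N : ℕ} {g : SL(2, ℚ)} :
    g ∈ GA N ↔ ∃ a b c d : ℤ, (N : ℤ) ∣ c ∧ g 0 0 = a ∧ g 0 1 = b ∧ g 1 0 = c ∧ g 1 1 = d := by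
  constructor
  · rintro ⟨γ, hγ, rfl⟩
    exact ⟨γ 0 0, γ 0 1, γ 1 0, γ 1 1, mem_Gamma0_iff_dvd.mp hγ, by simp, by simp, by simp, by simp⟩
  · rintro ⟨a, b, c, d, hN, h00, h01, h10, h11⟩
    have hdet := det_eq_one g
    rw [h00, h01, h10, h11] at hdet
    have hdet' : a * d - b * c = 1 := by exact_mod_cast hdet
    refine ⟨mkSL a b c d hdet', ?_, ?_⟩
    · rw [SetLike.mem_coe, mem_Gamma0_iff_dvd]; simpa using hN
    · ext i j
      fin_cases i <;> fin_cases j <;> simp [h00, h01, h10, h11]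

theorem mem_GC_iff {N p : ℕ} {g : SL(2, ℚ)} :
    g ∈ GC N p ↔ ∃ a b c d : ℤ, ((N : ℤ) * p) ∣ c ∧ g 0 0 = a ∧ g 0 1 = b ∧ g 1 0 = c ∧ g 1 1 = d := by
  have := mem_GA_iff (N := N * p) (g := g)
  simpa [GA, GC] using this

theorem mem_GB_iff {N p : ℕ} [NeZero p] {g : SL(2, ℚ)} :
    g ∈ GB N p ↔ ∃ a b c d : ℤ, (N : ℤ) ∣ c ∧ g 0 0 = a ∧ g 0 1 = b / p ∧ g 1 0 = p * c ∧
      g 1 1 = d := by
  have hp : (p : ℚ) ≠ 0 := Nat.cast_ne_zero.mpr (NeZero.ne p)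
  constructor
  · rintro ⟨h, hh, rfl⟩
    obtain ⟨a, b, c, d, hN, h00, h01, h10, h11⟩ := mem_GA_iff.mp hh
    exact ⟨a, b, c, d, hN, by simp [h00], by simp [h01], by simp [h10], by simp [h11]⟩
  · rintro ⟨a, b, c, d, hN, h00, h01, h10, h11⟩
    have hdet := det_eq_one g
    rw [h00, h01, h10, h11] at hdet
    have hdet' : a * d - b * c = 1 := by
      have : (a : ℚ) * d - b * c = 1 := by
        rw [← hdet]; field_simp
      exact_mod_cast this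
    refine ⟨castQ (mkSL a b c d hdet'), mem_GA_iff.mpr ⟨a, b, c, d, hN, ?_, ?_, ?_, ?_⟩, ?_⟩
    · simp
    · simp
    · simp
    · simp
    · ext i j
      fin_cases i <;> fin_cases j <;> simp [h00, h01, h10, h11]

theorem GC_le_GA (N p : ℕ) : GC N p ≤ GA N := by
  intro g hg
  obtain ⟨a, b, c, d, hN, h⟩ := mem_GC_iff.mp hg
  exact mem_GA_iff.mpr ⟨a, b, c, d, dvd_trans (dvd_mul_right _ _) hN, h⟩

theorem GC_le_GB (N p : ℕ) [NeZero p] : GC N p ≤ GB N p := by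
  have hp : (p : ℚ) ≠ 0 := Nat.cast_ne_zero.mpr (NeZero.ne p)
  have hp' : (p : ℤ) ≠ 0 := Nat.cast_ne_zero.mpr (NeZero.ne p)
  intro g hg
  obtain ⟨a, b, c, d, hN, h00, h01, h10, h11⟩ := mem_GC_iff.mp hg
  obtain ⟨c', rfl⟩ : (p : ℤ) ∣ c := dvd_trans (dvd_mul_left _ _) hN
  refine mem_GB_iff.mpr ⟨a, p * b, c', d, ?_, h00, ?_, ?_, h11⟩
  · rw [mul_comm (N : ℤ) p] at hN
    exact (mul_dvd_mul_iff_left hp').mp hN
  · rw [h01]; push_cast; field_simp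
  · rw [h10]; push_cast; ring

theorem not_dvd_of_mem_GA_of_notMem_GC {N p : ℕ} (hNp : Nat.Coprime N p) {g : SL(2, ℚ)}
    {c : ℤ} (hN : (N : ℤ) ∣ c) (h00 : ∃ a : ℤ, g 0 0 = a) (h01 : ∃ b : ℤ, g 0 1 = b)
    (h10 : g 1 0 = c) (h11 : ∃ d : ℤ, g 1 1 = d) (hg : g ∉ GC N p) : ¬ (p : ℤ) ∣ c := by
  intro hpc
  apply hg
  obtain ⟨a, ha⟩ := h00
  obtain ⟨b, hb⟩ := h01
  obtain ⟨d, hd⟩ := h11
  refine mem_GC_iff.mpr ⟨a, b, c, d, ?_, ha, hb, h10, hd⟩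
  have : IsCoprime (N : ℤ) (p : ℤ) := Nat.isCoprime_iff_coprime.mpr hNp
  exact this.mul_dvd hN hpc

section PP

variable (N p : ℕ) [hp : Fact p.Prime]


local notation "‖" x "‖ₚ" => padicNorm p x

/-- The two pieces of `ℚ²`: `X_A = {|x| ≤ |y|, y ≠ 0}` (for `true`), `X_B = {|y| < |x|}`. -/
def Xs : Bool → Set (Fin 2 → ℚ) := fun b =>
  cond b {v | ‖v 0‖ₚ ≤ ‖v 1‖ₚ ∧ v 1 ≠ 0} {v | ‖v 1‖ₚ < ‖v 0‖ₚ}

variable {p}

theorem pn_int (m : ℤ) : ‖(m : ℚ)‖ₚ ≤ 1 := padicNorm.of_int m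

theorem pn_int_of_not_dvd {m : ℤ} (h : ¬ (p : ℤ) ∣ m) : ‖(m : ℚ)‖ₚ = 1 :=
  (padicNorm.int_eq_one_iff m).mpr h

theorem pn_div_p {b : ℤ} (h : ¬ (p : ℤ) ∣ b) : ‖(b : ℚ) / p‖ₚ = p := by
  rw [padicNorm.div, pn_int_of_not_dvd h, pn_p, one_div, inv_inv]

theorem pn_p_mul_int (c : ℤ) : ‖(p : ℚ) * c‖ₚ ≤ (p : ℚ)⁻¹ := by
  have : ((p : ℚ) * c) = (((p : ℤ) * c : ℤ) : ℚ) := by push_cast; ring
  rw [this]
  exact pn_int_dvd p (dvd_mul_right _ _)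

variable {N}

theorem not_dvd_of_mem_GB_of_notMem_GC {g : SL(2, ℚ)} {a b c d : ℤ} (hN : (N : ℤ) ∣ c)
    (h00 : g 0 0 = a) (h01 : g 0 1 = b / p) (h10 : g 1 0 = p * c) (h11 : g 1 1 = d)
    (hg : g ∉ GC N p) : ¬ (p : ℤ) ∣ b := by
  have hp0 : (p : ℚ) ≠ 0 := Nat.cast_ne_zero.mpr hp.out.ne_zero
  rintro ⟨b', rfl⟩
  apply hg
  refine mem_GC_iff.mpr ⟨a, b', p * c, d, ?_, h00, ?_, ?_, h11⟩
  · rw [mul_comm (N : ℤ)]; exact mul_dvd_mul_left _ hN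
  · rw [h01]; push_cast; field_simp
  · rw [h10]; push_cast; ring

theorem pingPongData (hNp : Nat.Coprime N p) :
    @PingPongData SL(2, ℚ) _ (Fin 2 → ℚ) vecAction (SFam N p) (GC N p) (Xs p) := by
  let _ := vecAction
  have hsm0 : ∀ (g : SL(2, ℚ)) (v : Fin 2 → ℚ), (g • v) 0 = g 0 0 * v 0 + g 0 1 * v 1 :=
    vecAction_smul_0
  have hsm1 : ∀ (g : SL(2, ℚ)) (v : Fin 2 → ℚ), (g • v) 1 = g 1 0 * v 0 + g 1 1 * v 1 :=
    vecAction_smul_1
  refine ⟨?_, ?_, ?_, ?_, ?_, ?_⟩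
  · -- le
    intro i
    cases i
    · exact GC_le_GB N p
    · exact GC_le_GA N p
  · -- move
    intro i g hg hgC v hv
    cases i
    · -- g ∈ GB \ GC, v ∈ X_A, show g • v ∈ X_B
      obtain ⟨a, b, c, d, hN, h00, h01, h10, h11⟩ := mem_GB_iff.mp hg
      have hb : ¬ (p : ℤ) ∣ b := not_dvd_of_mem_GB_of_notMem_GC hN h00 h01 h10 h11 hgC
      obtain ⟨hv1, hv2⟩ : ‖v 0‖ₚ ≤ ‖v 1‖ₚ ∧ v 1 ≠ 0 := hv
      show ‖(g • v) 1‖ₚ < ‖(g • v) 0‖ₚ
      rw [hsm0, hsm1, h00, h01, h10, h11]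
      exact pp_L2 p (pn_int a) (pn_div_p hb) (pn_p_mul_int c) (pn_int d) hv1 hv2
    · -- g ∈ GA \ GC, v ∈ X_B, show g • v ∈ X_A
      obtain ⟨a, b, c, d, hN, h00, h01, h10, h11⟩ := mem_GA_iff.mp hg
      have hc : ¬ (p : ℤ) ∣ c :=
        not_dvd_of_mem_GA_of_notMem_GC hNp hN ⟨a, h00⟩ ⟨b, h01⟩ h10 ⟨d, h11⟩ hgC
      have hv' : ‖v 1‖ₚ < ‖v 0‖ₚ := hv
      show ‖(g • v) 0‖ₚ ≤ ‖(g • v) 1‖ₚ ∧ (g • v) 1 ≠ 0
      rw [hsm0, hsm1, h00, h01, h10, h11]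
      exact pp_L1 p (pn_int a) (pn_int b) (pn_int_of_not_dvd hc) (pn_int d) hv'
  · -- stay
    intro i g hg hgC
    cases i
    · -- g ∈ GB \ GC: find v ∈ X_B with g • v ∈ X_B
      obtain ⟨a, b, c, d, hN, h00, h01, h10, h11⟩ := mem_GB_iff.mp hg
      have hb : ¬ (p : ℤ) ∣ b := not_dvd_of_mem_GB_of_notMem_GC hN h00 h01 h10 h11 hgC
      have hp0 : (p : ℚ) ≠ 0 := Nat.cast_ne_zero.mpr hp.out.ne_zero
      -- choose z ∈ {0,1} with p ∤ a + b z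
      obtain ⟨z, hz⟩ : ∃ z : ℤ, ¬ (p : ℤ) ∣ a + b * z := by
        by_cases ha : (p : ℤ) ∣ a
        · refine ⟨1, fun h => hb ?_⟩
          have := (Int.dvd_add_right ha).mp h
          simpa using this
        · exact ⟨0, by simpa using ha⟩
      refine ⟨![1, p * z], ?_, ?_⟩
      · show ‖(![1, (p : ℚ) * z] : Fin 2 → ℚ) 1‖ₚ < ‖(![1, (p : ℚ) * z] : Fin 2 → ℚ) 0‖ₚ
        simp only [Matrix.cons_val_one, Matrix.cons_val_zero, Matrix.cons_val_fin_one]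
        rw [padicNorm.one]
        exact lt_of_le_of_lt (pn_p_mul_int z) (inv_p_lt_one p)
      · show ‖(g • (![1, (p : ℚ) * z] : Fin 2 → ℚ)) 1‖ₚ < ‖(g • (![1, (p : ℚ) * z] : Fin 2 → ℚ)) 0‖ₚ
        rw [hsm0, hsm1, h00, h01, h10, h11]
        simp only [Matrix.cons_val_one, Matrix.cons_val_zero, Matrix.cons_val_fin_one]
        have e1 : (a : ℚ) * 1 + b / p * (p * z) = ((a + b * z : ℤ) : ℚ) := by
          push_cast; field_simp
        have e2 : (p : ℚ) * c * 1 + d * (p * z) = p * ((c + d * z : ℤ) : ℚ) := by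
          push_cast; ring
        rw [e1, e2, pn_int_of_not_dvd hz]
        exact lt_of_le_of_lt (pn_p_mul_int _) (inv_p_lt_one p)
    · -- g ∈ GA \ GC: find v ∈ X_A with g • v ∈ X_A
      obtain ⟨a, b, c, d, hN, h00, h01, h10, h11⟩ := mem_GA_iff.mp hg
      have hc : ¬ (p : ℤ) ∣ c :=
        not_dvd_of_mem_GA_of_notMem_GC hNp hN ⟨a, h00⟩ ⟨b, h01⟩ h10 ⟨d, h11⟩ hgC
      obtain ⟨z, hz⟩ : ∃ z : ℤ, ¬ (p : ℤ) ∣ c * z + d := by
        by_cases hd : (p : ℤ) ∣ d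
        · refine ⟨1, fun h => hc ?_⟩
          have := (Int.dvd_add_left hd).mp h
          simpa using this
        · exact ⟨0, by simpa using hd⟩
      refine ⟨![z, 1], ?_, ?_⟩
      · show ‖(![(z : ℚ), 1] : Fin 2 → ℚ) 0‖ₚ ≤ ‖(![(z : ℚ), 1] : Fin 2 → ℚ) 1‖ₚ ∧
          (![(z : ℚ), 1] : Fin 2 → ℚ) 1 ≠ 0
        simp only [Matrix.cons_val_one, Matrix.cons_val_zero, Matrix.cons_val_fin_one]
        rw [padicNorm.one]
        exact ⟨pn_int z, one_ne_zero⟩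
      · show ‖(g • (![(z : ℚ), 1] : Fin 2 → ℚ)) 0‖ₚ ≤ ‖(g • (![(z : ℚ), 1] : Fin 2 → ℚ)) 1‖ₚ ∧
          (g • (![(z : ℚ), 1] : Fin 2 → ℚ)) 1 ≠ 0
        rw [hsm0, hsm1, h00, h01, h10, h11]
        simp only [Matrix.cons_val_one, Matrix.cons_val_zero, Matrix.cons_val_fin_one]
        have e1 : (a : ℚ) * z + b * 1 = ((a * z + b : ℤ) : ℚ) := by push_cast; ring
        have e2 : (c : ℚ) * z + d * 1 = ((c * z + d : ℤ) : ℚ) := by push_cast; ring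
        rw [e1, e2, pn_int_of_not_dvd hz]
        refine ⟨pn_int _, ?_⟩
        intro h0
        have : ‖((c * z + d : ℤ) : ℚ)‖ₚ = 0 := by rw [h0]; simp
        rw [pn_int_of_not_dvd hz] at this
        exact one_ne_zero this
  · -- base
    intro i g hg v hv
    obtain ⟨a, b, c, d, hN, h00, h01, h10, h11⟩ := mem_GC_iff.mp hg
    have hpc : (p : ℤ) ∣ c := dvd_trans (dvd_mul_left _ _) hN
    have hdet := det_eq_one g
    rw [h00, h01, h10, h11] at hdet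
    have hdet' : a * d - b * c = 1 := by exact_mod_cast hdet
    have hpr : Prime (p : ℤ) := Nat.prime_iff_prime_int.mp hp.out
    have had : ¬ (p : ℤ) ∣ a * d := by
      intro h
      have h1 : (p : ℤ) ∣ a * d - b * c := dvd_sub h (dvd_mul_of_dvd_right hpc _)
      rw [hdet'] at h1
      exact hpr.not_dvd_one h1
    have ha : ¬ (p : ℤ) ∣ a := fun h => had (dvd_mul_of_dvd_left h _)
    have hd : ¬ (p : ℤ) ∣ d := fun h => had (dvd_mul_of_dvd_right h _)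
    cases i
    · have hv' : ‖v 1‖ₚ < ‖v 0‖ₚ := hv
      show ‖(g • v) 1‖ₚ < ‖(g • v) 0‖ₚ
      rw [hsm0, hsm1, h00, h01, h10, h11]
      exact pp_L4 p (pn_int_of_not_dvd ha) (pn_int b) (pn_int_dvd p hpc) (pn_int d) hv'
    · obtain ⟨hv1, hv2⟩ : ‖v 0‖ₚ ≤ ‖v 1‖ₚ ∧ v 1 ≠ 0 := hv
      show ‖(g • v) 0‖ₚ ≤ ‖(g • v) 1‖ₚ ∧ (g • v) 1 ≠ 0
      rw [hsm0, hsm1, h00, h01, h10, h11]
      exact pp_L3 p (pn_int a) (pn_int b) (pn_int_dvd p hpc) (pn_int_of_not_dvd hd) hv1 hv2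
  · -- disjoint
    rw [Set.disjoint_left]
    rintro v ⟨h1, _⟩ h2
    have h2' : ‖v 1‖ₚ < ‖v 0‖ₚ := h2
    exact absurd h1 (not_le.mpr h2')
  · -- nonempty
    intro i
    cases i
    · refine ⟨![1, 0], ?_⟩
      show ‖(![1, 0] : Fin 2 → ℚ) 1‖ₚ < ‖(![1, 0] : Fin 2 → ℚ) 0‖ₚ
      simp
    · refine ⟨![0, 1], ?_⟩
      show ‖(![0, 1] : Fin 2 → ℚ) 0‖ₚ ≤ ‖(![0, 1] : Fin 2 → ℚ) 1‖ₚ ∧ (![0, 1] : Fin 2 → ℚ) 1 ≠ 0
      simp

end PP

/-- Row reduction modulo `p²`. -/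
theorem exists_reduce {N p : ℤ} (hNp : IsCoprime N p) (hp : Prime p) (r0 r1 s0 s1 : ℤ)
    (hdet : p ^ 2 ∣ r0 * s1 - r1 * s0) (hr : ¬ p ∣ r0 ∨ ¬ p ∣ r1) :
    ∃ z : ℤ, p ^ 2 ∣ N * z * r0 + s0 ∧ p ^ 2 ∣ N * z * r1 + s1 := by
  have hcop : ∀ r : ℤ, ¬ p ∣ r → IsCoprime (N * r) (p ^ 2) := by
    intro r hr
    have h1 : IsCoprime r p := (IsCoprime.symm ((Prime.coprime_iff_not_dvd hp).mpr hr))
    exact (IsCoprime.mul_left hNp h1).pow_right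
  rcases hr with hr | hr
  · obtain ⟨u, v, huv⟩ := hcop r0 hr
    -- u * (N r0) + v p^2 = 1; z = - s0 u
    refine ⟨-(s0 * u), ?_, ?_⟩
    · refine ⟨s0 * v, ?_⟩
      linear_combination (-s0) * huv
    · -- r0 * (N z r1 + s1) ≡ det
      have h2 : p ^ 2 ∣ r0 * (N * (-(s0 * u)) * r1 + s1) := by
        have : r0 * (N * (-(s0 * u)) * r1 + s1) =
            (r0 * s1 - r1 * s0) + p ^ 2 * (r1 * s0 * v) := by
          linear_combination (-(r1 * s0)) * huv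
        rw [this]
        exact dvd_add hdet (dvd_mul_right _ _)
      have h3 : IsCoprime (p ^ 2) r0 := by
        have h1 : IsCoprime r0 p := (IsCoprime.symm ((Prime.coprime_iff_not_dvd hp).mpr hr))
        exact h1.symm.pow_left
      exact h3.dvd_of_dvd_mul_left h2
  · obtain ⟨u, v, huv⟩ := hcop r1 hr
    refine ⟨-(s1 * u), ?_, ?_⟩
    · have h2 : p ^ 2 ∣ r1 * (N * (-(s1 * u)) * r0 + s0) := by
        have : r1 * (N * (-(s1 * u)) * r0 + s0) =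
            -(r0 * s1 - r1 * s0) + p ^ 2 * (r0 * s1 * v) := by
          linear_combination (-(r0 * s1)) * huv
        rw [this]
        exact dvd_add (dvd_neg.mpr hdet) (dvd_mul_right _ _)
      have h3 : IsCoprime (p ^ 2) r1 := by
        have h1 : IsCoprime r1 p := (IsCoprime.symm ((Prime.coprime_iff_not_dvd hp).mpr hr))
        exact h1.symm.pow_left
      exact h3.dvd_of_dvd_mul_left h2
    · refine ⟨s1 * v, ?_⟩
      linear_combination (-s1) * huv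

section Gen

variable {N p : ℕ} [hp : Fact p.Prime]

/-- `diag(p, 1/p)`. -/
def sMat (p : ℕ) [Fact p.Prime] : SL(2, ℚ) :=
  ⟨!![(p : ℚ), 0; 0, (p : ℚ)⁻¹], by
    have hp0 : (p : ℚ) ≠ 0 := Nat.cast_ne_zero.mpr (Fact.out : p.Prime).ne_zero
    rw [Matrix.det_fin_two_of]; field_simp; ring⟩

@[simp] theorem sMat_00 : (sMat p) 0 0 = p := rfl
@[simp] theorem sMat_01 : (sMat p) 0 1 = 0 := rfl
@[simp] theorem sMat_10 : (sMat p) 1 0 = 0 := rfl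
@[simp] theorem sMat_11 : (sMat p) 1 1 = (p : ℚ)⁻¹ := rfl

theorem mul_apply' (g h : SL(2, ℚ)) (i j : Fin 2) :
    (g * h) i j = g i 0 * h 0 j + g i 1 * h 1 j := by
  rw [Matrix.SpecialLinearGroup.coe_mul, Matrix.mul_apply, Fin.sum_univ_two]

theorem ext4 {A B : SL(2, ℚ)} (h00 : A 0 0 = B 0 0) (h01 : A 0 1 = B 0 1)
    (h10 : A 1 0 = B 1 0) (h11 : A 1 1 = B 1 1) : A = B := by
  ext i j
  fin_cases i <;> fin_cases j <;> assumption

theorem sMat_mem (hNp : Nat.Coprime N p) : sMat p ∈ GA N ⊔ GB N p := by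
  have hp0 : (p : ℚ) ≠ 0 := Nat.cast_ne_zero.mpr hp.out.ne_zero
  obtain ⟨u, v, huv⟩ : IsCoprime (N : ℤ) (p : ℤ) := Nat.isCoprime_iff_coprime.mpr hNp
  -- u N + v p = 1 ; x' = v, y' = -u
  have h1 : ((N : ℤ) * (-u) + 1) * 1 - (-u) * N = 1 := by ring
  have h2 : (p : ℤ) * v - (-(-u)) * (-(N : ℤ)) = 1 := by linarith
  have hq : (u : ℚ) * N + v * p = 1 := by exact_mod_cast huv
  have e : sMat p = castQ (mkSL ((N : ℤ) * (-u) + 1) (-u) N 1 h1) *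
      conjD p (castQ (mkSL p (-(-u)) (-(N : ℤ)) v h2)) := by
    apply ext4
    · rw [mul_apply']
      simp only [sMat_00, castQ_apply, mkSL_00, mkSL_01, conjD_00, conjD_10, mkSL_10]
      push_cast
      ring
    · rw [mul_apply']
      simp only [sMat_01, castQ_apply, mkSL_00, mkSL_01, conjD_01, conjD_11, mkSL_11]
      push_cast
      field_simp
      linear_combination ((u : ℚ)) * hq
    · rw [mul_apply']
      simp only [sMat_10, castQ_apply, mkSL_10, mkSL_11, conjD_00, conjD_10, mkSL_00]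
      push_cast
      ring
    · rw [mul_apply']
      simp only [sMat_11, castQ_apply, mkSL_10, mkSL_11, conjD_01, conjD_11, mkSL_01]
      push_cast
      field_simp
      linear_combination (-1 : ℚ) * hq
  rw [e]
  refine Subgroup.mul_mem _ (Subgroup.mem_sup_left ?_) (Subgroup.mem_sup_right ?_)
  · exact mem_GA_iff.mpr ⟨(N : ℤ) * (-u) + 1, -u, N, 1, dvd_refl _, by simp, by simp, by simp,
      by simp⟩
  · exact ⟨_, mem_GA_iff.mpr ⟨p, -(-u), -(N : ℤ), v, (dvd_neg.mpr (dvd_refl _)), by simp, by simp,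
      by simp, by simp⟩, rfl⟩

end Gen

section Gen2

variable {N p : ℕ} [hp : Fact p.Prime]

theorem gen_aux (hNp : Nat.Coprime N p) : ∀ k : ℕ, ∀ g : SL(2, ℚ), ∀ m00 m01 m10 m11 : ℤ,
    (N : ℤ) ∣ m10 → g 0 0 * (p : ℚ) ^ k = m00 → g 0 1 * (p : ℚ) ^ k = m01 →
    g 1 0 * (p : ℚ) ^ k = m10 → g 1 1 * (p : ℚ) ^ k = m11 → g ∈ GA N ⊔ GB N p := by
  have hp0 : (p : ℚ) ≠ 0 := Nat.cast_ne_zero.mpr hp.out.ne_zero
  have hpZ : (p : ℤ) ≠ 0 := Nat.cast_ne_zero.mpr hp.out.ne_zero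
  have hpr : Prime (p : ℤ) := Nat.prime_iff_prime_int.mp hp.out
  have hcop : IsCoprime (N : ℤ) (p : ℤ) := Nat.isCoprime_iff_coprime.mpr hNp
  intro k
  induction k with
  | zero =>
    intro g m00 m01 m10 m11 hN h00 h01 h10 h11
    simp only [pow_zero, mul_one] at h00 h01 h10 h11
    exact Subgroup.mem_sup_left (mem_GA_iff.mpr ⟨m00, m01, m10, m11, hN, h00, h01, h10, h11⟩)
  | succ k ih =>
    intro g m00 m01 m10 m11 hN h00 h01 h10 h11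
    by_cases hall : (p : ℤ) ∣ m00 ∧ (p : ℤ) ∣ m01 ∧ (p : ℤ) ∣ m10 ∧ (p : ℤ) ∣ m11
    · obtain ⟨⟨a, rfl⟩, ⟨b, rfl⟩, ⟨c, rfl⟩, ⟨d, rfl⟩⟩ := hall
      have key : ∀ (x : ℚ) (m : ℤ), x * (p : ℚ) ^ (k + 1) = ((p * m : ℤ) : ℚ) →
          x * (p : ℚ) ^ k = m := by
        intro x m h
        push_cast at h
        rw [pow_succ] at h
        have : (p : ℚ) * (x * (p : ℚ) ^ k) = p * m := by linear_combination h
        exact mul_left_cancel₀ hp0 this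
      refine ih g a b c d ?_ (key _ _ h00) (key _ _ h01) (key _ _ h10) (key _ _ h11)
      exact hcop.dvd_of_dvd_mul_left hN
    · -- primitive case
      have hdet := det_eq_one g
      have hdetM : m00 * m11 - m01 * m10 = (p : ℤ) ^ 2 * (p : ℤ) ^ (2 * k) := by
        have : ((m00 * m11 - m01 * m10 : ℤ) : ℚ) = (((p : ℤ) ^ 2 * (p : ℤ) ^ (2 * k) : ℤ) : ℚ) := by
          push_cast
          rw [← h00, ← h01, ← h10, ← h11]
          have e : (p : ℚ) ^ 2 * (p : ℚ) ^ (2 * k) = (p : ℚ) ^ (k + 1) * (p : ℚ) ^ (k + 1) := by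
            rw [← pow_add, ← pow_add]; congr 1; ring
          rw [e]
          linear_combination ((p : ℚ) ^ (k + 1) * (p : ℚ) ^ (k + 1)) * hdet
        exact_mod_cast this
      obtain ⟨e, he⟩ : ∃ e : ℤ, ¬ (p : ℤ) ∣ (m00 + e * m10) ∨ ¬ (p : ℤ) ∣ (m01 + e * m11) := by
        by_cases h0 : ¬ (p : ℤ) ∣ m00 ∨ ¬ (p : ℤ) ∣ m01
        · exact ⟨0, by simpa using h0⟩
        · push Not at h0
          obtain ⟨h0a, h0b⟩ := h0
          refine ⟨1, ?_⟩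
          by_contra hcon
          push Not at hcon
          apply hall
          refine ⟨h0a, h0b, ?_, ?_⟩
          · have := (Int.dvd_add_right h0a).mp hcon.1
            simpa using this
          · have := (Int.dvd_add_right h0b).mp hcon.2
            simpa using this
      have hdet' : (p : ℤ) ^ 2 ∣ (m00 + e * m10) * m11 - (m01 + e * m11) * m10 := by
        have : (m00 + e * m10) * m11 - (m01 + e * m11) * m10 = m00 * m11 - m01 * m10 := by ring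
        rw [this, hdetM]
        exact dvd_mul_right _ _
      obtain ⟨z, ⟨q0, hq0⟩, ⟨q1, hq1⟩⟩ :=
        exists_reduce hcop hpr (m00 + e * m10) (m01 + e * m11) m10 m11 hdet' he
      have hsl : (1 : ℤ) * ((N : ℤ) * z * e + 1) - e * ((N : ℤ) * z) = 1 := by ring
      set a : SL(2, ℚ) := castQ (mkSL 1 e ((N : ℤ) * z) ((N : ℤ) * z * e + 1) hsl) with ha
      have haA : a ∈ GA N := mem_GA_iff.mpr
        ⟨1, e, (N : ℤ) * z, (N : ℤ) * z * e + 1, dvd_mul_right _ _, by simp [ha], by simp [ha],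
          by simp [ha], by simp [ha]⟩
      have ha00 : a 0 0 = 1 := by simp [ha]
      have ha01 : a 0 1 = e := by simp [ha]
      have ha10 : a 1 0 = (N : ℚ) * z := by simp [ha]
      have ha11 : a 1 1 = (N : ℚ) * z * e + 1 := by simp [ha]
      set g' : SL(2, ℚ) := sMat p * (a * g) with hg'
      have hg'mem : g' ∈ GA N ⊔ GB N p := by
        refine ih g' (m00 + e * m10) (m01 + e * m11) q0 q1 ?_ ?_ ?_ ?_ ?_
        · -- N ∣ q0
          have h1 : (N : ℤ) ∣ (p : ℤ) ^ 2 * q0 := by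
            rw [← hq0]
            exact dvd_add ⟨z * (m00 + e * m10), by ring⟩ hN
          exact (hcop.pow_right (n := 2)).dvd_of_dvd_mul_left h1
        · rw [hg', mul_apply', mul_apply', mul_apply', sMat_00, sMat_01, ha00, ha01, ha10, ha11]
          push_cast
          rw [← h00, ← h10]
          ring
        · rw [hg', mul_apply', mul_apply', mul_apply', sMat_00, sMat_01, ha00, ha01, ha10, ha11]
          push_cast
          rw [← h01, ← h11]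
          ring
        · rw [hg', mul_apply', mul_apply', mul_apply', sMat_10, sMat_11, ha00, ha01, ha10, ha11]
          have hq0' : ((N : ℚ) * z * (m00 + e * m10) + m10) = (p : ℚ) ^ 2 * q0 := by
            exact_mod_cast hq0
          rw [← h00, ← h10] at hq0'
          field_simp
          refine mul_left_cancel₀ hp0 ?_
          linear_combination hq0'
        · rw [hg', mul_apply', mul_apply', mul_apply', sMat_10, sMat_11, ha00, ha01, ha10, ha11]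
          have hq1' : ((N : ℚ) * z * (m01 + e * m11) + m11) = (p : ℚ) ^ 2 * q1 := by
            exact_mod_cast hq1
          rw [← h01, ← h11] at hq1'
          field_simp
          refine mul_left_cancel₀ hp0 ?_
          linear_combination hq1'
      have hg : g = a⁻¹ * ((sMat p)⁻¹ * g') := by rw [hg']; group
      rw [hg]
      exact Subgroup.mul_mem _ (Subgroup.inv_mem _ (Subgroup.mem_sup_left haA))
        (Subgroup.mul_mem _ (Subgroup.inv_mem _ (sMat_mem hNp)) hg'mem)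

end Gen2

section GammaS

theorem inv_apply_00 (g : SL(2, ℚ)) : (g⁻¹) 0 0 = g 1 1 := by
  rw [Matrix.SpecialLinearGroup.coe_inv, Matrix.adjugate_fin_two]; rfl
theorem inv_apply_01 (g : SL(2, ℚ)) : (g⁻¹) 0 1 = -g 0 1 := by
  rw [Matrix.SpecialLinearGroup.coe_inv, Matrix.adjugate_fin_two]; rfl
theorem inv_apply_10 (g : SL(2, ℚ)) : (g⁻¹) 1 0 = -g 1 0 := by
  rw [Matrix.SpecialLinearGroup.coe_inv, Matrix.adjugate_fin_two]; rfl
theorem inv_apply_11 (g : SL(2, ℚ)) : (g⁻¹) 1 1 = g 0 0 := by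
  rw [Matrix.SpecialLinearGroup.coe_inv, Matrix.adjugate_fin_two]; rfl

/-- Entry description of `Γ₀(N)[1/p] ⊆ SL(2,ℚ)`: some `p^k • g` is integral with lower-left
entry divisible by `N`. -/
def IsGammaEntry (N p : ℕ) (g : SL(2, ℚ)) : Prop :=
  ∃ k : ℕ, ∃ m00 m01 m10 m11 : ℤ, (N : ℤ) ∣ m10 ∧ g 0 0 * (p : ℚ) ^ k = m00 ∧
    g 0 1 * (p : ℚ) ^ k = m01 ∧ g 1 0 * (p : ℚ) ^ k = m10 ∧ g 1 1 * (p : ℚ) ^ k = m11

/-- The subgroup of `SL(2,ℚ)` cut out by `IsGammaEntry`. -/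
def GammaEntry (N p : ℕ) : Subgroup SL(2, ℚ) where
  carrier := {g | IsGammaEntry N p g}
  one_mem' := ⟨0, 1, 0, 0, 1, dvd_zero _, by simp, by simp, by simp, by simp⟩
  mul_mem' := by
    rintro g h ⟨k, m00, m01, m10, m11, hN, h00, h01, h10, h11⟩
      ⟨l, n00, n01, n10, n11, hN', h00', h01', h10', h11'⟩
    refine ⟨k + l, m00 * n00 + m01 * n10, m00 * n01 + m01 * n11, m10 * n00 + m11 * n10,
      m10 * n01 + m11 * n11, ?_, ?_, ?_, ?_, ?_⟩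
    · exact dvd_add (dvd_mul_of_dvd_left hN _) (dvd_mul_of_dvd_right hN' _)
    · rw [mul_apply']; push_cast; rw [← h00, ← h01, ← h00', ← h10']; ring
    · rw [mul_apply']; push_cast; rw [← h00, ← h01, ← h01', ← h11']; ring
    · rw [mul_apply']; push_cast; rw [← h10, ← h11, ← h00', ← h10']; ring
    · rw [mul_apply']; push_cast; rw [← h10, ← h11, ← h01', ← h11']; ring
  inv_mem' := by
    rintro g ⟨k, m00, m01, m10, m11, hN, h00, h01, h10, h11⟩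
    refine ⟨k, m11, -m01, -m10, m00, (dvd_neg.mpr hN), ?_, ?_, ?_, ?_⟩
    · rw [inv_apply_00, h11]
    · rw [inv_apply_01]; push_cast; rw [← h01]; ring
    · rw [inv_apply_10]; push_cast; rw [← h10]; ring
    · rw [inv_apply_11, h00]

variable {N p : ℕ} [hp : Fact p.Prime]

/-- `Γ₀(N)[1/p]`, defined as the subgroup of `SL(2,ℚ)` generated by `Γ₀(N)` and
`diag(1,p) Γ₀(N) diag(1,p)⁻¹`; see `mem_GammaS_iff` for the description by entries. -/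
def GammaS (N p : ℕ) [Fact p.Prime] : Subgroup SL(2, ℚ) := GA N ⊔ GB N p

theorem GA_le_GammaEntry : GA N ≤ GammaEntry N p := by
  intro g hg
  obtain ⟨a, b, c, d, hN, h00, h01, h10, h11⟩ := mem_GA_iff.mp hg
  exact ⟨0, a, b, c, d, hN, by simp [h00], by simp [h01], by simp [h10], by simp [h11]⟩

theorem GB_le_GammaEntry : GB N p ≤ GammaEntry N p := by
  have hp0 : (p : ℚ) ≠ 0 := Nat.cast_ne_zero.mpr hp.out.ne_zero
  intro g hg
  obtain ⟨a, b, c, d, hN, h00, h01, h10, h11⟩ := mem_GB_iff.mp hg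
  refine ⟨1, p * a, b, p * p * c, p * d, dvd_mul_of_dvd_right hN _, ?_, ?_, ?_, ?_⟩
  · rw [h00]; push_cast; ring
  · rw [h01]; push_cast; field_simp
  · rw [h10]; push_cast; ring
  · rw [h11]; push_cast; ring

theorem GammaS_eq_GammaEntry (hNp : Nat.Coprime N p) : GammaS N p = GammaEntry N p := by
  apply le_antisymm
  · exact sup_le GA_le_GammaEntry GB_le_GammaEntry
  · rintro g ⟨k, m00, m01, m10, m11, hN, h00, h01, h10, h11⟩
    exact gen_aux hNp k g m00 m01 m10 m11 hN h00 h01 h10 h11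

theorem mem_GammaS_iff (hNp : Nat.Coprime N p) {g : SL(2, ℚ)} :
    g ∈ GammaS N p ↔ IsGammaEntry N p g := by
  rw [GammaS_eq_GammaEntry hNp]; rfl

end GammaS

section Consumer

variable (N p : ℕ) [hp : Fact p.Prime]

/-- `j1 : Γ₀(N) → Γ₀(N)[1/p]`, the inclusion. -/
def j1 : ↥(Gamma0 N) →* ↥(GammaS N p) :=
  (castQ.comp (Gamma0 N).subtype).codRestrict (GammaS N p) (fun γ =>
    Subgroup.mem_sup_left ⟨γ.1, γ.2, rfl⟩)

/-- `j2 : Γ₀(N) → Γ₀(N)[1/p]`, `[[a,b],[c,d]] ↦ [[a, b/p],[p c, d]]`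
(conjugation by `diag(1,p)`). -/
def j2 : ↥(Gamma0 N) →* ↥(GammaS N p) :=
  (((conjD p).comp castQ).comp (Gamma0 N).subtype).codRestrict (GammaS N p) (fun γ =>
    Subgroup.mem_sup_right ⟨castQ γ.1, ⟨γ.1, γ.2, rfl⟩, rfl⟩)

@[simp] theorem j1_coe (γ : ↥(Gamma0 N)) : ((j1 N p γ : ↥(GammaS N p)) : SL(2, ℚ)) = castQ γ.1 := rfl

@[simp] theorem j2_coe (γ : ↥(Gamma0 N)) :
    ((j2 N p γ : ↥(GammaS N p)) : SL(2, ℚ)) = conjD p (castQ γ.1) := rfl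

theorem j1_injective : Function.Injective (j1 N p) := by
  intro γ γ' h
  have := congrArg (fun x : ↥(GammaS N p) => (x : SL(2, ℚ))) h
  exact Subtype.ext (castQ_injective this)

theorem j2_injective : Function.Injective (j2 N p) := by
  intro γ γ' h
  have := congrArg (fun x : ↥(GammaS N p) => (x : SL(2, ℚ))) h
  exact Subtype.ext (castQ_injective (conjD_injective p this))

variable {N p}

/-- The two embeddings agree on `Γ₀(Np)` up to the twist `[[a,b],[c,d]] ↦ [[a, p b],[c/p, d]]`: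
entrywise form, for elements `γ ∈ Γ₀(Np)`, `γ' ∈ Γ₀(N)`. -/
theorem j1_eq_j2_of_entries {γ γ' : ↥(Gamma0 N)} (h00 : γ'.1 0 0 = γ.1 0 0)
    (h01 : γ'.1 0 1 = p * γ.1 0 1) (h10 : p * γ'.1 1 0 = γ.1 1 0) (h11 : γ'.1 1 1 = γ.1 1 1) :
    j1 N p γ = j2 N p γ' := by
  have hp0 : (p : ℚ) ≠ 0 := Nat.cast_ne_zero.mpr hp.out.ne_zero
  apply Subtype.ext
  rw [j1_coe, j2_coe]
  apply ext4
  · simp [h00]
  · rw [conjD_01, castQ_apply, castQ_apply, h01]; push_cast; field_simp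
  · rw [conjD_10, castQ_apply, castQ_apply, ← h10]; push_cast; ring
  · simp [h11]

/-- **Ihara's amalgam theorem, consumer form.**  For `p` prime, `N` coprime to `p`, the group
`Γ₀(N)[1/p] = GammaS N p` is the amalgam of two copies of `Γ₀(N)` along `Γ₀(Np)`:
homomorphisms `f g : Γ₀(N) →* H` such that `f γ = g γ'` whenever `γ ∈ Γ₀(Np)` and
`γ' = [[a, p b],[c/p, d]]` glue to a unique homomorphism on `GammaS N p`. -/
theorem ihara_amalgam (hNp : Nat.Coprime N p) {H : Type*} [Group H] (f g : ↥(Gamma0 N) →* H)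
    (hfg : ∀ γ γ' : ↥(Gamma0 N), γ'.1 0 0 = γ.1 0 0 → γ'.1 0 1 = p * γ.1 0 1 →
      p * γ'.1 1 0 = γ.1 1 0 → γ'.1 1 1 = γ.1 1 1 → f γ = g γ') :
    ∃! F : ↥(GammaS N p) →* H, F.comp (j1 N p) = f ∧ F.comp (j2 N p) = g := by
  have hp0 : (p : ℚ) ≠ 0 := Nat.cast_ne_zero.mpr hp.out.ne_zero
  have hpZ : (p : ℤ) ≠ 0 := Nat.cast_ne_zero.mpr hp.out.ne_zero
  have pp := pingPongData (N := N) (p := p) hNp
  -- the isomorphisms Γ₀(N) ≃ GA, Γ₀(N) ≃ GB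
  let eA : ↥(Gamma0 N) ≃* ↥(GA N) := (Gamma0 N).equivMapOfInjective castQ castQ_injective
  let eB : ↥(Gamma0 N) ≃* ↥(GB N p) :=
    eA.trans ((GA N).equivMapOfInjective (conjD p) (conjD_injective p))
  have heA : ∀ γ : ↥(Gamma0 N), ((eA γ : ↥(GA N)) : SL(2, ℚ)) = castQ γ.1 := fun γ => rfl
  have heB : ∀ γ : ↥(Gamma0 N), ((eB γ : ↥(GB N p)) : SL(2, ℚ)) = conjD p (castQ γ.1) :=
    fun γ => rfl
  have hcompat : ∀ c (hc : c ∈ GC N p),
      (f.comp eA.symm.toMonoidHom) ⟨c, pp.le true hc⟩ =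
        (g.comp eB.symm.toMonoidHom) ⟨c, pp.le false hc⟩ := by
    intro c hc
    simp only [MonoidHom.coe_comp, MulEquiv.coe_toMonoidHom, Function.comp_apply]
    set γ := eA.symm ⟨c, pp.le true hc⟩ with hγ
    set γ' := eB.symm ⟨c, pp.le false hc⟩ with hγ'
    have h1 : castQ γ.1 = c := by
      rw [← heA γ, hγ, MulEquiv.apply_symm_apply]
    have h2 : conjD p (castQ γ'.1) = c := by
      rw [← heB γ', hγ', MulEquiv.apply_symm_apply]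
    have h3 : conjD p (castQ γ'.1) = castQ γ.1 := by rw [h1, h2]
    have e00 := congrArg (fun m : SL(2, ℚ) => m 0 0) h3
    have e01 := congrArg (fun m : SL(2, ℚ) => m 0 1) h3
    have e10 := congrArg (fun m : SL(2, ℚ) => m 1 0) h3
    have e11 := congrArg (fun m : SL(2, ℚ) => m 1 1) h3
    simp only [conjD_00, conjD_01, conjD_10, conjD_11, castQ_apply] at e00 e01 e10 e11
    apply hfg γ γ'
    · exact_mod_cast e00
    · have : ((γ'.1 0 1 : ℤ) : ℚ) = p * (γ.1 0 1 : ℤ) := by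
        rw [← e01]; field_simp
      exact_mod_cast this
    · exact_mod_cast e10
    · exact_mod_cast e11
  obtain ⟨F, ⟨hFA, hFB⟩, huniq⟩ :=
    existsUnique_hom₂ pp (f.comp eA.symm.toMonoidHom) (g.comp eB.symm.toMonoidHom) hcompat
  refine ⟨F, ⟨?_, ?_⟩, ?_⟩
  · ext γ
    have := hFA (eA γ)
    simp only [MonoidHom.coe_comp, MulEquiv.coe_toMonoidHom, Function.comp_apply,
      MulEquiv.symm_apply_apply] at this
    rw [← this]
    rfl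
  · ext γ
    have := hFB (eB γ)
    simp only [MonoidHom.coe_comp, MulEquiv.coe_toMonoidHom, Function.comp_apply,
      MulEquiv.symm_apply_apply] at this
    rw [← this]
    rfl
  · intro F' ⟨hF'1, hF'2⟩
    apply huniq
    constructor
    · intro a
      obtain ⟨γ, rfl⟩ := eA.surjective a
      simp only [MonoidHom.coe_comp, MulEquiv.coe_toMonoidHom, Function.comp_apply,
        MulEquiv.symm_apply_apply]
      rw [← hF'1]
      rfl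
    · intro b
      obtain ⟨γ, rfl⟩ := eB.surjective b
      simp only [MonoidHom.coe_comp, MulEquiv.coe_toMonoidHom, Function.comp_apply,
        MulEquiv.symm_apply_apply]
      rw [← hF'2]
      rfl

end Consumer

end Fermat.Agent.S41.Ihara.Amalgam
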