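import Mathlib
import Fermat.Agent.S41.Defs
import Fermat.Agent.S41.Ihara.Amalgam
import Fermat.Agent.Gateway.A2.Defs
import Fermat.Agent.S41.CSP.Elementary

/-!
# P-S41 (B4c), consumer theorem (I3): Ihara assembly (helper4)

From additive characters `φ₁ φ₂ : Γ₀(N) → B` with `res₁ φ₁ + res₂ φ₂ = 0` the amalgam theorem
produces a character `F` of `Γ₀(N)[1/q] = GammaS N q` with `F ∘ j1 = φ₁`, `F ∘ j2 = -φ₂`
(`iharaChar`).  If `φ₁ φ₂` kill the parabolic / elliptic elements, `F` kills `-1` and all the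
elementary matrices `[[1, x], [0, 1]]`, `[[1, 0], [N x, 1]]`, `x ∈ ℤ[1/q]`.  The congruence subgroup
property for `SL₂(ℤ[1/q])` (`CSPStatement`) then gives a level `M` such that `φ₁` and `φ₂` vanish
on `Γ₀(N) ∩ Γ(M)` (`ihara_vanish_of_csp`).
-/

set_option autoImplicit false

namespace Fermat.Agent.S41.Ihara

open CongruenceSubgroup Matrix
open Fermat.Agent.S41.Ihara.Amalgam
open Fermat.Agent.Gateway.A2
open Fermat.Agent.S41.CSP
open scoped MatrixGroups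

/-! ### The character of `GammaS N q` attached to a pair in the kernel of `α` -/

section Build

variable {N q : ℕ} [hq : Fact q.Prime] {B : Type*} [AddCommGroup B]

/-- The compatibility hypothesis of `ihara_amalgam` from `res₁ φ₁ + res₂ φ₂ = 0`. -/
theorem amalgam_compat (φ₁ φ₂ : Additive (Gamma0 N) →+ B)
    (h : res₁ N q B φ₁ + res₂ N q B φ₂ = 0) (γ γ' : ↥(Gamma0 N))
    (h00 : γ'.1 0 0 = γ.1 0 0) (h01 : γ'.1 0 1 = q * γ.1 0 1) (h10 : q * γ'.1 1 0 = γ.1 1 0)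
    (h11 : γ'.1 1 1 = γ.1 1 1) :
    φ₁ (Additive.ofMul γ) = -φ₂ (Additive.ofMul γ') := by
  have hq0 : (q : ℤ) ≠ 0 := Nat.cast_ne_zero.mpr hq.out.ne_zero
  have hN' : (N : ℤ) ∣ γ'.1 1 0 := mem_Gamma0_iff_dvd.mp γ'.2
  have hmem : γ.1 ∈ Gamma0 (N * q) := by
    rw [mem_Gamma0_iff_dvd, ← h10]
    push_cast
    rw [mul_comm (N : ℤ)]
    exact mul_dvd_mul_left _ hN'
  let c : Gamma0 (N * q) := ⟨γ.1, hmem⟩
  have hc1 : incl N q c = γ := Subtype.ext rfl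
  have hc2 : degConj N q c = γ' := by
    apply Subtype.ext
    rw [degConj_coe]
    ext i j
    fin_cases i <;> fin_cases j
    · show (degSL N q c) 0 0 = γ'.1 0 0
      rw [degSL_zero_zero, h00]
    · show (degSL N q c) 0 1 = γ'.1 0 1
      rw [degSL_zero_one, h01]
    · show (degSL N q c) 1 0 = γ'.1 1 0
      apply mul_left_cancel₀ hq0
      rw [q_mul_degSL_one_zero, h10]
    · show (degSL N q c) 1 1 = γ'.1 1 1
      rw [degSL_one_one, h11]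
  have h' := DFunLike.congr_fun h (Additive.ofMul c)
  rw [AddMonoidHom.add_apply, res₁_apply, res₂_apply, hc1, hc2, AddMonoidHom.zero_apply] at h'
  exact eq_neg_of_add_eq_zero_left h'

/-- The two characters of `Γ₀(N)` glue to a character of `Γ₀(N)[1/q]`. -/
theorem exists_iharaChar (hNq : Nat.Coprime N q) (φ₁ φ₂ : Additive (Gamma0 N) →+ B)
    (h : res₁ N q B φ₁ + res₂ N q B φ₂ = 0) :
    ∃ F : ↥(GammaS N q) →* Multiplicative B,
      (∀ γ : Gamma0 N, F (j1 N q γ) = Multiplicative.ofAdd (φ₁ (Additive.ofMul γ))) ∧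
      (∀ γ : Gamma0 N, F (j2 N q γ) = Multiplicative.ofAdd (-φ₂ (Additive.ofMul γ))) := by
  obtain ⟨F, ⟨hF1, hF2⟩, -⟩ := ihara_amalgam hNq
    (AddMonoidHom.toMultiplicative φ₁ : Gamma0 N →* Multiplicative B)
    (AddMonoidHom.toMultiplicative (-φ₂) : Gamma0 N →* Multiplicative B)
    (fun γ γ' h00 h01 h10 h11 => by
      show Multiplicative.ofAdd (φ₁ (Additive.ofMul γ)) =
        Multiplicative.ofAdd ((-φ₂) (Additive.ofMul γ'))
      rw [AddMonoidHom.neg_apply, amalgam_compat φ₁ φ₂ h γ γ' h00 h01 h10 h11])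
  refine ⟨F, fun γ => ?_, fun γ => ?_⟩
  · have := DFunLike.congr_fun hF1 γ
    exact this
  · have := DFunLike.congr_fun hF2 γ
    exact this

end Build

/-! ### Elementary matrices and `-1` in `GammaS N q` -/

/-- `x ∈ ℤ[1/q]` (same convention as `Amalgam.IsGammaEntry`). -/
def IsZInv (q : ℕ) (x : ℚ) : Prop := ∃ k : ℕ, ∃ m : ℤ, x * (q : ℚ) ^ k = m

/-- The principal congruence condition of level `M` in `SL₂(ℤ[1/q]) ⊆ SL(2, ℚ)`:
the entries of `g - 1` lie in `M • ℤ[1/q]`. -/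
def IsLevel (M q : ℕ) (g : SL(2, ℚ)) : Prop :=
  ∃ k : ℕ, ∃ m00 m01 m10 m11 : ℤ, (g 0 0 - 1) * (q : ℚ) ^ k = M * m00 ∧
    g 0 1 * (q : ℚ) ^ k = M * m01 ∧ g 1 0 * (q : ℚ) ^ k = M * m10 ∧
    (g 1 1 - 1) * (q : ℚ) ^ k = M * m11

section Elem

variable {N q : ℕ} [hq : Fact q.Prime]

theorem upperT_mem_GammaS (hNq : Nat.Coprime N q) {x : ℚ} (hx : IsZInv q x) :
    (upperT x : SL(2, ℚ)) ∈ GammaS N q := by
  obtain ⟨k, m, hm⟩ := hx
  rw [mem_GammaS_iff hNq]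
  refine ⟨k, (q : ℤ) ^ k, m, 0, (q : ℤ) ^ k, dvd_zero _, ?_, ?_, ?_, ?_⟩
  · simp
  · simpa using hm
  · simp
  · simp

theorem lowerT_mem_GammaS (hNq : Nat.Coprime N q) {x : ℚ} (hx : IsZInv q x) :
    (lowerT ((N : ℚ) * x) : SL(2, ℚ)) ∈ GammaS N q := by
  obtain ⟨k, m, hm⟩ := hx
  rw [mem_GammaS_iff hNq]
  refine ⟨k, (q : ℤ) ^ k, 0, (N : ℤ) * m, (q : ℤ) ^ k, dvd_mul_right _ _, ?_, ?_, ?_, ?_⟩
  · simp
  · simp
  · simp only [coe_lowerT, Matrix.of_apply, Matrix.cons_val', Matrix.cons_val_one,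
      Matrix.cons_val_zero]
    push_cast
    rw [mul_assoc, hm]
  · simp

theorem sMat_conj_upperT (x : ℚ) :
    sMat q * upperT x * (sMat q)⁻¹ = upperT ((q : ℚ) ^ 2 * x) := by
  have hq0 : (q : ℚ) ≠ 0 := Nat.cast_ne_zero.mpr hq.out.ne_zero
  apply ext4 <;>
    simp only [mul_apply', inv_apply_00, inv_apply_01, inv_apply_10, inv_apply_11, sMat_00,
      sMat_01, sMat_10, sMat_11, coe_upperT, Matrix.of_apply, Matrix.cons_val', Matrix.cons_val_one,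
      Matrix.cons_val_zero] <;>
    field_simp <;> ring

theorem sMat_inv_conj_lowerT (y : ℚ) :
    (sMat q)⁻¹ * lowerT y * sMat q = lowerT ((q : ℚ) ^ 2 * y) := by
  have hq0 : (q : ℚ) ≠ 0 := Nat.cast_ne_zero.mpr hq.out.ne_zero
  apply ext4 <;>
    simp only [mul_apply', inv_apply_00, inv_apply_01, inv_apply_10, inv_apply_11, sMat_00,
      sMat_01, sMat_10, sMat_11, coe_lowerT, Matrix.of_apply, Matrix.cons_val', Matrix.cons_val_one,
      Matrix.cons_val_zero] <;>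
    field_simp <;> ring

end Elem

/-! ### The glued character kills `-1` and the elementary matrices -/

section Kill

variable {N q : ℕ} [hq : Fact q.Prime] {B : Type*} [AddCommGroup B]

/-- Integral upper unipotent matrices are in the image of `j1`. -/
theorem exists_j1_eq_upperT (n : ℤ) :
    ∃ γ : Gamma0 N, IsPE (γ : SL(2, ℤ)) ∧ ((j1 N q γ : ↥(GammaS N q)) : SL(2, ℚ)) = upperT (n : ℚ) := by
  have hdet : (1 : ℤ) * 1 - n * 0 = 1 := by ring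
  refine ⟨⟨mkSL 1 n 0 1 hdet, mem_Gamma0_iff_dvd.mpr (by simp)⟩, ?_, ?_⟩
  · show ((mkSL 1 n 0 1 hdet : SL(2, ℤ)) : Matrix (Fin 2) (Fin 2) ℤ).trace ^ 2 ≤ 4
    rw [Matrix.trace_fin_two]
    show ((mkSL 1 n 0 1 hdet) 0 0 + (mkSL 1 n 0 1 hdet) 1 1) ^ 2 ≤ 4
    rw [mkSL_00, mkSL_11]
    norm_num
  · rw [j1_coe]
    apply ext4 <;> simp

/-- Integral lower unipotent matrices of level `N` are in the image of `j1`. -/
theorem exists_j1_eq_lowerT (n : ℤ) :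
    ∃ γ : Gamma0 N, IsPE (γ : SL(2, ℤ)) ∧
      ((j1 N q γ : ↥(GammaS N q)) : SL(2, ℚ)) = lowerT ((N : ℚ) * (n : ℚ)) := by
  have hdet : (1 : ℤ) * 1 - 0 * ((N : ℤ) * n) = 1 := by ring
  refine ⟨⟨mkSL 1 0 ((N : ℤ) * n) 1 hdet, mem_Gamma0_iff_dvd.mpr (by simp)⟩, ?_, ?_⟩
  · show ((mkSL 1 0 ((N : ℤ) * n) 1 hdet : SL(2, ℤ)) : Matrix (Fin 2) (Fin 2) ℤ).trace ^ 2 ≤ 4
    rw [Matrix.trace_fin_two]
    show ((mkSL 1 0 ((N : ℤ) * n) 1 hdet) 0 0 + (mkSL 1 0 ((N : ℤ) * n) 1 hdet) 1 1) ^ 2 ≤ 4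
    rw [mkSL_00, mkSL_11]
    norm_num
  · rw [j1_coe]
    apply ext4 <;> simp

/-- `-1` is in the image of `j1`. -/
theorem exists_j1_eq_neg_one :
    ∃ γ : Gamma0 N, IsPE (γ : SL(2, ℤ)) ∧ ((j1 N q γ : ↥(GammaS N q)) : SL(2, ℚ)) = -1 := by
  have hdet : (-1 : ℤ) * (-1) - 0 * 0 = 1 := by ring
  refine ⟨⟨mkSL (-1) 0 0 (-1) hdet, mem_Gamma0_iff_dvd.mpr (by simp)⟩, ?_, ?_⟩
  · show ((mkSL (-1) 0 0 (-1) hdet : SL(2, ℤ)) : Matrix (Fin 2) (Fin 2) ℤ).trace ^ 2 ≤ 4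
    rw [Matrix.trace_fin_two]
    show ((mkSL (-1) 0 0 (-1) hdet) 0 0 + (mkSL (-1) 0 0 (-1) hdet) 1 1) ^ 2 ≤ 4
    rw [mkSL_00, mkSL_11]
    norm_num
  · rw [j1_coe]
    apply ext4 <;> simp

variable (F : ↥(GammaS N q) →* Multiplicative B)
  (hF : ∀ γ : Gamma0 N, IsPE (γ : SL(2, ℤ)) → F (j1 N q γ) = 1)

include hF

theorem iharaChar_neg_one (g : ↥(GammaS N q)) (hg : (g : SL(2, ℚ)) = -1) : F g = 1 := by
  obtain ⟨γ, hγ, h⟩ := exists_j1_eq_neg_one (N := N) (q := q)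
  have : g = j1 N q γ := Subtype.ext (by rw [hg, h])
  rw [this]
  exact hF γ hγ

theorem iharaChar_upperT_aux (hNq : Nat.Coprime N q) :
    ∀ k : ℕ, ∀ (x : ℚ) (m : ℤ), x * (q : ℚ) ^ k = m →
      ∀ g : ↥(GammaS N q), (g : SL(2, ℚ)) = upperT x → F g = 1 := by
  intro k
  induction k with
  | zero =>
    intro x m hm g hg
    rw [pow_zero, mul_one] at hm
    obtain ⟨γ, hγ, h⟩ := exists_j1_eq_upperT (N := N) (q := q) m
    have : g = j1 N q γ := Subtype.ext (by rw [hg, h, hm])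
    rw [this]
    exact hF γ hγ
  | succ k ih =>
    intro x m hm g hg
    let D : ↥(GammaS N q) := ⟨sMat q, sMat_mem hNq⟩
    have h1 : ((D * g * D⁻¹ : ↥(GammaS N q)) : SL(2, ℚ)) = upperT ((q : ℚ) ^ 2 * x) := by
      rw [Subgroup.coe_mul, Subgroup.coe_mul, Subgroup.coe_inv, hg]
      exact sMat_conj_upperT x
    have h2 : (q : ℚ) ^ 2 * x * (q : ℚ) ^ k = ((q : ℤ) * m : ℤ) := by
      push_cast
      rw [← hm]
      ring
    have h3 := ih ((q : ℚ) ^ 2 * x) ((q : ℤ) * m) h2 (D * g * D⁻¹) h1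
    rwa [map_mul, map_mul, map_inv, mul_comm (F D), mul_assoc, mul_inv_cancel, mul_one] at h3

theorem iharaChar_upperT (hNq : Nat.Coprime N q) {x : ℚ} (hx : IsZInv q x)
    (g : ↥(GammaS N q)) (hg : (g : SL(2, ℚ)) = upperT x) : F g = 1 := by
  obtain ⟨k, m, hm⟩ := hx
  exact iharaChar_upperT_aux F hF hNq k x m hm g hg

theorem iharaChar_lowerT_aux (hNq : Nat.Coprime N q) :
    ∀ k : ℕ, ∀ (x : ℚ) (m : ℤ), x * (q : ℚ) ^ k = m →
      ∀ g : ↥(GammaS N q), (g : SL(2, ℚ)) = lowerT ((N : ℚ) * x) → F g = 1 := by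
  intro k
  induction k with
  | zero =>
    intro x m hm g hg
    rw [pow_zero, mul_one] at hm
    obtain ⟨γ, hγ, h⟩ := exists_j1_eq_lowerT (N := N) (q := q) m
    have : g = j1 N q γ := Subtype.ext (by rw [hg, h, hm])
    rw [this]
    exact hF γ hγ
  | succ k ih =>
    intro x m hm g hg
    let D : ↥(GammaS N q) := ⟨sMat q, sMat_mem hNq⟩
    have h1 : ((D⁻¹ * g * D : ↥(GammaS N q)) : SL(2, ℚ)) =
        lowerT ((N : ℚ) * ((q : ℚ) ^ 2 * x)) := by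
      rw [Subgroup.coe_mul, Subgroup.coe_mul, Subgroup.coe_inv, hg]
      show (sMat q)⁻¹ * lowerT ((N : ℚ) * x) * sMat q = _
      rw [sMat_inv_conj_lowerT]
      congr 1
      ring
    have h2 : (q : ℚ) ^ 2 * x * (q : ℚ) ^ k = ((q : ℤ) * m : ℤ) := by
      push_cast
      rw [← hm]
      ring
    have h3 := ih ((q : ℚ) ^ 2 * x) ((q : ℤ) * m) h2 (D⁻¹ * g * D) h1
    rwa [map_mul, map_mul, map_inv, mul_comm (F D)⁻¹, mul_assoc, inv_mul_cancel, mul_one] at h3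

theorem iharaChar_lowerT (hNq : Nat.Coprime N q) {x : ℚ} (hx : IsZInv q x)
    (g : ↥(GammaS N q)) (hg : (g : SL(2, ℚ)) = lowerT ((N : ℚ) * x)) : F g = 1 := by
  obtain ⟨k, m, hm⟩ := hx
  exact iharaChar_lowerT_aux F hF hNq k x m hm g hg

end Kill

/-! ### Levels -/

section Level

theorem dvd_entries_of_mem_Gamma {M : ℕ} {γ : SL(2, ℤ)} (h : γ ∈ Gamma M) :
    (M : ℤ) ∣ γ 0 0 - 1 ∧ (M : ℤ) ∣ γ 0 1 ∧ (M : ℤ) ∣ γ 1 0 ∧ (M : ℤ) ∣ γ 1 1 - 1 := by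
  rw [Gamma_mem] at h
  obtain ⟨h00, h01, h10, h11⟩ := h
  refine ⟨?_, ?_, ?_, ?_⟩
  · rw [← ZMod.intCast_zmod_eq_zero_iff_dvd]
    push_cast
    rw [h00, sub_self]
  · rwa [← ZMod.intCast_zmod_eq_zero_iff_dvd]
  · rwa [← ZMod.intCast_zmod_eq_zero_iff_dvd]
  · rw [← ZMod.intCast_zmod_eq_zero_iff_dvd]
    push_cast
    rw [h11, sub_self]

theorem isLevel_castQ {M : ℕ} (q : ℕ) {γ : SL(2, ℤ)} (h : γ ∈ Gamma M) :
    IsLevel M q (castQ γ) := by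
  obtain ⟨⟨m00, h00⟩, ⟨m01, h01⟩, ⟨m10, h10⟩, ⟨m11, h11⟩⟩ := dvd_entries_of_mem_Gamma h
  refine ⟨0, m00, m01, m10, m11, ?_, ?_, ?_, ?_⟩
  · rw [castQ_apply, pow_zero, mul_one]
    exact_mod_cast h00
  · rw [castQ_apply, pow_zero, mul_one]
    exact_mod_cast h01
  · rw [castQ_apply, pow_zero, mul_one]
    exact_mod_cast h10
  · rw [castQ_apply, pow_zero, mul_one]
    exact_mod_cast h11

theorem isLevel_conjD_castQ {M : ℕ} (q : ℕ) [NeZero q] {γ : SL(2, ℤ)} (h : γ ∈ Gamma M) :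
    IsLevel M q (conjD q (castQ γ)) := by
  have hq0 : (q : ℚ) ≠ 0 := Nat.cast_ne_zero.mpr (NeZero.ne q)
  obtain ⟨⟨m00, h00⟩, ⟨m01, h01⟩, ⟨m10, h10⟩, ⟨m11, h11⟩⟩ := dvd_entries_of_mem_Gamma h
  have e00 : ((γ 0 0 : ℤ) : ℚ) - 1 = M * m00 := by exact_mod_cast h00
  have e01 : ((γ 0 1 : ℤ) : ℚ) = M * m01 := by exact_mod_cast h01
  have e10 : ((γ 1 0 : ℤ) : ℚ) = M * m10 := by exact_mod_cast h10
  have e11 : ((γ 1 1 : ℤ) : ℚ) - 1 = M * m11 := by exact_mod_cast h11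
  refine ⟨1, m00 * q, m01, m10 * q * q, m11 * q, ?_, ?_, ?_, ?_⟩
  · rw [conjD_00, castQ_apply, pow_one, e00]
    push_cast
    ring
  · rw [conjD_01, castQ_apply, pow_one, e01]
    field_simp
  · rw [conjD_10, castQ_apply, pow_one, e10]
    push_cast
    ring
  · rw [conjD_11, castQ_apply, pow_one, e11]
    push_cast
    ring

end Level

/-! ### The consumer theorem (I3) -/

section Main

/-- The form of the congruence subgroup property of `SL₂(ℤ[1/q])` consumed by (I3)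
(to be supplied by block (B4b)): an abelian character of `Γ₀(N)[1/q]` with finite target
which kills `-1` and the elementary matrices is trivial on a principal congruence subgroup. -/
def CSPStatement (N q : ℕ) [Fact q.Prime] (B : Type*) [AddCommGroup B] [Finite B] : Prop :=
  ∀ F : ↥(GammaS N q) →* Multiplicative B,
    (∀ g : ↥(GammaS N q), (g : SL(2, ℚ)) = -1 → F g = 1) →
    (∀ x : ℚ, IsZInv q x → ∀ g : ↥(GammaS N q), (g : SL(2, ℚ)) = upperT x → F g = 1) →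
    (∀ x : ℚ, IsZInv q x → ∀ g : ↥(GammaS N q),
      (g : SL(2, ℚ)) = lowerT ((N : ℚ) * x) → F g = 1) →
    ∃ M : ℕ, 0 < M ∧ ∀ g : ↥(GammaS N q), IsLevel M q (g : SL(2, ℚ)) → F g = 1

variable {N q : ℕ} [hq : Fact q.Prime] {B : Type*} [AddCommGroup B] [Finite B]

/-- **(I3)**, modulo the congruence subgroup property: if `res₁ φ₁ + res₂ φ₂ = 0` for characters
`φ₁ φ₂` of `Γ₀(N)` killing parabolic and elliptic elements, then `φ₁` and `φ₂` vanish on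
`Γ₀(N) ∩ Γ(M)` for some `M > 0`. -/
theorem ihara_vanish_of_csp (hcsp : CSPStatement N q B) (hNq : Nat.Coprime N q)
    (φ₁ φ₂ : Additive (Gamma0 N) →+ B) (h₁ : φ₁ ∈ homPE ℤ (Gamma0 N) B)
    (_h₂ : φ₂ ∈ homPE ℤ (Gamma0 N) B) (h : res₁ N q B φ₁ + res₂ N q B φ₂ = 0) :
    ∃ M : ℕ, 0 < M ∧ ∀ gam : Gamma0 N, (gam : SL(2, ℤ)) ∈ Gamma M →
      φ₁ (Additive.ofMul gam) = 0 ∧ φ₂ (Additive.ofMul gam) = 0 := by
  obtain ⟨F, hF1, hF2⟩ := exists_iharaChar hNq φ₁ φ₂ h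
  have hF : ∀ γ : Gamma0 N, IsPE (γ : SL(2, ℤ)) → F (j1 N q γ) = 1 := by
    intro γ hγ
    rw [hF1, h₁ γ hγ]
    rfl
  obtain ⟨M, hM, hvan⟩ := hcsp F (iharaChar_neg_one F hF)
    (fun x hx g hg => iharaChar_upperT F hF hNq hx g hg)
    (fun x hx g hg => iharaChar_lowerT F hF hNq hx g hg)
  refine ⟨M, hM, fun gam hgam => ⟨?_, ?_⟩⟩
  · have h1 := hvan (j1 N q gam) (by rw [j1_coe]; exact isLevel_castQ q hgam)
    rw [hF1] at h1
    exact h1
  · have h2 := hvan (j2 N q gam) (by rw [j2_coe]; exact isLevel_conjD_castQ q hgam)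
    rw [hF2] at h2
    have h3 : -φ₂ (Additive.ofMul gam) = 0 := h2
    exact neg_eq_zero.mp h3

end Main

end Fermat.Agent.S41.Ihara
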