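import Mathlib
import Fermat.Agent.Gateway.Hecke.Coh

/-!
# P-S41 (B4c), consumer theorem (I4): Hecke operators are Eisenstein on congruence characters
(helper4)

If an additive character `φ : Γ₀(N) → A` vanishes on `Γ₀(N) ∩ Γ(M)` and `l ∤ N` is a prime with
`l ≡ 1 mod M`, then `T_l φ = (l + 1) • φ`.

Proof: the coset representatives `heckeRep l x` are integer matrices, congruent mod `M` to the
unipotent matrices `uRep l x ∈ Γ₀(N)` (`uRep ∞ = 1`, `uRep j = [[1, j], [0, 1]]`), so the cocycle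
satisfies `coc x γ ≡ uRep x * γ * (uRep (γ̄ • x))⁻¹ mod M`, and the sum over `x` telescopes.
-/

set_option autoImplicit false

namespace Fermat.Agent.S41.Ihara

open P2MW.S_ModularForm_heckeT_slash_eq_self_of_mem_Gamma0.ModularForm.HeckeSlashInvariance
open CongruenceSubgroup Matrix.SpecialLinearGroup
open Fermat.Agent.Gateway.HeckeCoh
open scoped MatrixGroups

/-- The Hecke representatives as integer matrices. -/
def repInt (l : ℕ) (x : OnePoint (ZMod l)) : Matrix (Fin 2) (Fin 2) ℤ :=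
  x.elim !![(l : ℤ), 0; 0, 1] (fun j => !![1, (j.val : ℤ); 0, (l : ℤ)])

@[simp] theorem repInt_infty (l : ℕ) :
    repInt l (OnePoint.infty) = !![(l : ℤ), 0; 0, 1] := rfl

@[simp] theorem repInt_coe (l : ℕ) (j : ZMod l) :
    repInt l (j : OnePoint (ZMod l)) = !![1, (j.val : ℤ); 0, (l : ℤ)] := rfl

theorem heckeRep_val (l : ℕ) (hl : l ≠ 0) (x : OnePoint (ZMod l)) :
    ((heckeRep l x : GL (Fin 2) ℝ) : Matrix (Fin 2) (Fin 2) ℝ) =
      (Int.castRingHom ℝ).mapMatrix (repInt l x) := by
  induction x using OnePoint.rec with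
  | infty =>
    rw [heckeRep_infty, ModularForm.val_heckeDiagMatrix hl]
    ext i j
    fin_cases i <;> fin_cases j <;> simp
  | coe j =>
    rw [heckeRep_coe, ModularForm.val_heckeMatrix hl]
    ext i k
    fin_cases i <;> fin_cases k <;> simp

/-- The unipotent matrices congruent to the Hecke representatives modulo `l - 1`. -/
def uRep (l : ℕ) (x : OnePoint (ZMod l)) : SL(2, ℤ) :=
  x.elim 1 (fun j => ⟨!![1, (j.val : ℤ); 0, 1], by simp [Matrix.det_fin_two_of]⟩)

@[simp] theorem uRep_infty (l : ℕ) : uRep l (OnePoint.infty) = 1 := rfl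

@[simp] theorem coe_uRep_coe (l : ℕ) (j : ZMod l) :
    ((uRep l (j : OnePoint (ZMod l)) : SL(2, ℤ)) : Matrix (Fin 2) (Fin 2) ℤ) =
      !![1, (j.val : ℤ); 0, 1] := rfl

theorem uRep_mem (N l : ℕ) (x : OnePoint (ZMod l)) : uRep l x ∈ Gamma0 N := by
  induction x using OnePoint.rec with
  | infty => exact one_mem _
  | coe j => simp [Gamma0_mem]

/-- `uRep l x` as an element of `Γ₀(N)`. -/
def uRepG (N l : ℕ) (x : OnePoint (ZMod l)) : Gamma0 N := ⟨uRep l x, uRep_mem N l x⟩

theorem repInt_mod (l M : ℕ) (hl : l ≡ 1 [MOD M]) (x : OnePoint (ZMod l)) :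
    (Int.castRingHom (ZMod M)).mapMatrix (repInt l x) =
      (Int.castRingHom (ZMod M)).mapMatrix ((uRep l x : SL(2, ℤ)) : Matrix (Fin 2) (Fin 2) ℤ) := by
  have h1 : ((l : ℕ) : ZMod M) = 1 := by
    have := (ZMod.natCast_eq_natCast_iff l 1 M).mpr hl
    simpa using this
  induction x using OnePoint.rec with
  | infty =>
    ext i j
    fin_cases i <;> fin_cases j <;> simp [h1]
  | coe j =>
    ext i k
    fin_cases i <;> fin_cases k <;> simp [h1]

variable (N l : ℕ) [NeZero N] [Fact l.Prime] (hlN : ¬ l ∣ N)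

/-- The defining relation of the cocycle, as an identity of integer matrices. -/
theorem coc_int (x : OnePoint (ZMod l)) (gam : Gamma0 N) :
    repInt l x * ((gam : SL(2, ℤ)) : Matrix (Fin 2) (Fin 2) ℤ) =
      ((coc N l hlN x gam : SL(2, ℤ)) : Matrix (Fin 2) (Fin 2) ℤ) *
        repInt l (redMatrix l (gam : SL(2, ℤ)) • x) := by
  have hl0 : l ≠ 0 := (Fact.out : l.Prime).ne_zero
  have h := congrArg (fun g : GL (Fin 2) ℝ => (g : Matrix (Fin 2) (Fin 2) ℝ))
    (coc_spec N l hlN x gam)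
  simp only [Matrix.GeneralLinearGroup.coe_mul, mapGL_coe_matrix, heckeRep_val l hl0] at h
  have hinj : Function.Injective ((Int.castRingHom ℝ).mapMatrix :
      Matrix (Fin 2) (Fin 2) ℤ → Matrix (Fin 2) (Fin 2) ℝ) := by
    intro A B hAB
    ext i j
    have := congrFun (congrFun hAB i) j
    simpa using this
  apply hinj
  rw [map_mul, map_mul]
  exact h

/-- Modulo `M` (with `l ≡ 1 mod M`) the cocycle is the unipotent coboundary of `γ`. -/
theorem coc_map_eq (M : ℕ) (hl : l ≡ 1 [MOD M]) (x : OnePoint (ZMod l)) (gam : Gamma0 N) :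
    Matrix.SpecialLinearGroup.map (Int.castRingHom (ZMod M)) (coc N l hlN x gam : SL(2, ℤ)) *
        Matrix.SpecialLinearGroup.map (Int.castRingHom (ZMod M))
          (uRep l (redMatrix l (gam : SL(2, ℤ)) • x)) =
      Matrix.SpecialLinearGroup.map (Int.castRingHom (ZMod M)) (uRep l x) *
        Matrix.SpecialLinearGroup.map (Int.castRingHom (ZMod M)) (gam : SL(2, ℤ)) := by
  apply Subtype.ext
  rw [Matrix.SpecialLinearGroup.coe_mul, Matrix.SpecialLinearGroup.coe_mul,
    Matrix.SpecialLinearGroup.map_apply_coe, Matrix.SpecialLinearGroup.map_apply_coe,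
    Matrix.SpecialLinearGroup.map_apply_coe, Matrix.SpecialLinearGroup.map_apply_coe,
    ← repInt_mod l M hl, ← repInt_mod l M hl, ← map_mul, ← map_mul, coc_int N l hlN x gam]

/-- The coboundary of `γ` by the unipotent representatives. -/
noncomputable def ucob (x : OnePoint (ZMod l)) (gam : Gamma0 N) : Gamma0 N :=
  uRepG N l x * gam * (uRepG N l (redMatrix l (gam : SL(2, ℤ)) • x))⁻¹

theorem coc_mul_ucob_inv_mem (M : ℕ) (hl : l ≡ 1 [MOD M]) (x : OnePoint (ZMod l))
    (gam : Gamma0 N) :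
    ((coc N l hlN x gam * (ucob N l x gam)⁻¹ : Gamma0 N) : SL(2, ℤ)) ∈ Gamma M := by
  rw [Gamma_mem']
  have h := coc_map_eq N l hlN M hl x gam
  simp only [ucob, uRepG, Subgroup.coe_mul, Subgroup.coe_inv, map_mul, map_inv, mul_inv_rev,
    inv_inv]
  rw [← mul_assoc, ← mul_assoc, h]
  group

/-- **(I4)**: on additive characters of `Γ₀(N)` vanishing on `Γ₀(N) ∩ Γ(M)`, the Hecke operator
`T_l` acts as multiplication by `l + 1` for every prime `l ∤ N` with `l ≡ 1 mod M`. -/
theorem heckeHom_eq_smul_of_vanish (M : ℕ) (hl : l ≡ 1 [MOD M]) {A : Type*} [AddCommGroup A]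
    (φ : Additive (Gamma0 N) →+ A)
    (hφ : ∀ gam : Gamma0 N, (gam : SL(2, ℤ)) ∈ Gamma M → φ (Additive.ofMul gam) = 0) :
    heckeHom N l hlN A φ = (l + 1) • φ := by
  refine AddMonoidHom.ext fun gam => ?_
  obtain ⟨gam, rfl⟩ := Additive.ofMul.surjective gam
  rw [heckeHom_apply]
  have hterm : ∀ x : OnePoint (ZMod l), φ (Additive.ofMul (coc N l hlN x gam)) =
      φ (Additive.ofMul (uRepG N l x)) + φ (Additive.ofMul gam) -
        φ (Additive.ofMul (uRepG N l (redMatrix l (gam : SL(2, ℤ)) • x))) := by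
    intro x
    have h1 : coc N l hlN x gam =
        (coc N l hlN x gam * (ucob N l x gam)⁻¹) * ucob N l x gam := by group
    have h2 := hφ _ (coc_mul_ucob_inv_mem N l hlN M hl x gam)
    rw [h1, ofMul_mul, map_add, h2, zero_add, ucob, ofMul_mul, ofMul_mul, ofMul_inv, map_add,
      map_add, map_neg, sub_eq_add_neg]
  have hperm : ∑ x : OnePoint (ZMod l),
      φ (Additive.ofMul (uRepG N l (redMatrix l (gam : SL(2, ℤ)) • x))) =
      ∑ x : OnePoint (ZMod l), φ (Additive.ofMul (uRepG N l x)) :=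
    Equiv.sum_comp (MulAction.toPerm (redMatrix l (gam : SL(2, ℤ))))
      (fun y => φ (Additive.ofMul (uRepG N l y)))
  have hcard : Fintype.card (OnePoint (ZMod l)) = l + 1 := by
    rw [show Fintype.card (OnePoint (ZMod l)) = Fintype.card (Option (ZMod l)) from rfl,
      Fintype.card_option, ZMod.card]
  rw [Finset.sum_congr rfl fun x _ => hterm x, Finset.sum_sub_distrib, Finset.sum_add_distrib,
    hperm, add_sub_cancel_left, Finset.sum_const, Finset.card_univ, hcard]
  rfl

end Fermat.Agent.S41.Ihara
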