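import Mathlib
import Fermat.Agent.Gateway.Hecke.Coh
import Fermat.Agent.Gateway.Hecke.CohPE
import Fermat.Agent.S41.Ihara.Eisenstein

/-!
# P-S41 (B4c), consumer theorem (I4'): Hecke operators are Eisenstein on characters whose
restriction to `Γ(M)` is `SL₂(ℤ)`-conjugation invariant (helper36)

Let `φ : Γ₀(N) → A` be an additive character killing parabolic/elliptic elements, `N ∣ M`, and
assume that `φ (t g t⁻¹) = φ g` for all `g ∈ Γ(M)` and all `t ∈ SL₂(ℤ)`.  Then for every prime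
`l ∤ N` with `l ≡ 1 mod M` we have `T_l φ = (l + 1) • φ`.  (No vanishing on `Γ(M)` is assumed.)

Proof: with the level one cocycle `cocZ x γ` (defined for all `γ ∈ SL₂(ℤ)`) and the unipotent
matrices `uRep x`, the elements `kfun x γ = (uRep x)⁻¹ * cocZ x γ * uRep (γ̄ • x) * γ⁻¹` lie in
`Γ(M)` and satisfy `kfun x (γ δ) = kfun x γ * (γ * kfun (γ̄ • x) δ * γ⁻¹)`.  Hence
`C γ = ∑ x, φ (kfun x γ)` is a homomorphism `SL₂(ℤ) → A`; it kills `T` because `φ` and `T_l φ` are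
parabolic, so it vanishes (`SL₂(ℤ)` is generated by `S, T` and `S = T⁻¹ (S T⁻¹ S⁻¹) T⁻¹`).
Finally `(T_l φ) γ = (l + 1) φ γ + C γ` for `γ ∈ Γ₀(N)`.
-/

set_option autoImplicit false

namespace Fermat.Agent.S41.Ihara

open P2MW.S_ModularForm_heckeT_slash_eq_self_of_mem_Gamma0.ModularForm.HeckeSlashInvariance
open CongruenceSubgroup Matrix.SpecialLinearGroup
open Fermat.Agent.Gateway.HeckeCoh Fermat.Agent.Gateway.A2
open scoped MatrixGroups

/-! ### A homomorphism from `SL₂(ℤ)` to an abelian group killing `T` is trivial -/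

theorem modS_eq_T_conj :
    (ModularGroup.S : SL(2, ℤ)) =
      ModularGroup.T⁻¹ * (ModularGroup.S * ModularGroup.T⁻¹ * ModularGroup.S⁻¹) *
        ModularGroup.T⁻¹ := by
  decide

theorem monoidHom_SL2Z_eq_one_of_T {H : Type*} [CommGroup H] (f : SL(2, ℤ) →* H)
    (hT : f ModularGroup.T = 1) (g : SL(2, ℤ)) : f g = 1 := by
  have hS : f ModularGroup.S = 1 := by
    have h := congrArg f modS_eq_T_conj
    rw [map_mul, map_mul, map_mul, map_mul, map_inv, map_inv, hT] at h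
    simpa using h
  have hle : (⊤ : Subgroup SL(2, ℤ)) ≤ f.ker := by
    rw [← SpecialLinearGroup.SL2Z_generators, Subgroup.closure_le]
    rintro x (rfl | rfl)
    · exact hS
    · exact hT
  exact hle (Subgroup.mem_top g)

theorem fun_SL2Z_eq_zero_of_T {A : Type*} [AddCommGroup A] (c : SL(2, ℤ) → A)
    (hmul : ∀ γ δ : SL(2, ℤ), c (γ * δ) = c γ + c δ) (hT : c ModularGroup.T = 0)
    (γ : SL(2, ℤ)) : c γ = 0 := by
  let C : SL(2, ℤ) →* Multiplicative A :=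
    MonoidHom.mk' (fun γ => Multiplicative.ofAdd (c γ))
      (fun γ δ => congrArg Multiplicative.ofAdd (hmul γ δ))
  have h := monoidHom_SL2Z_eq_one_of_T C (congrArg Multiplicative.ofAdd hT) γ
  exact congrArg Multiplicative.toAdd h

/-! ### The level one cocycle -/

section CocZ

variable (l : ℕ) [Fact l.Prime]

theorem not_dvd_one_of_prime : ¬ l ∣ 1 := (Fact.out : l.Prime).one_lt.ne' ∘ Nat.dvd_one.mp

/-- An element of `SL₂(ℤ)` as an element of `Γ₀(1)`. -/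
def toGamma0One (γ : SL(2, ℤ)) : Gamma0 1 :=
  ⟨γ, by rw [Gamma0_mem]; exact Subsingleton.elim _ _⟩

@[simp] theorem coe_toGamma0One (γ : SL(2, ℤ)) : ((toGamma0One γ : Gamma0 1) : SL(2, ℤ)) = γ := rfl

theorem toGamma0One_mul (γ δ : SL(2, ℤ)) :
    toGamma0One (γ * δ) = toGamma0One γ * toGamma0One δ := rfl

/-- The cocycle of the Hecke representatives, for all of `SL₂(ℤ)`. -/
noncomputable def cocZ (x : OnePoint (ZMod l)) (γ : SL(2, ℤ)) : SL(2, ℤ) :=
  (coc 1 l (not_dvd_one_of_prime l) x (toGamma0One γ) : SL(2, ℤ))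

theorem cocZ_mul (x : OnePoint (ZMod l)) (γ δ : SL(2, ℤ)) :
    cocZ l x (γ * δ) = cocZ l x γ * cocZ l (redMatrix l γ • x) δ := by
  unfold cocZ
  rw [toGamma0One_mul, coc_mul, Subgroup.coe_mul]
  rfl

theorem cocZ_eq_coc (N : ℕ) [NeZero N] (hlN : ¬ l ∣ N) (x : OnePoint (ZMod l)) (γ : Gamma0 N) :
    cocZ l x (γ : SL(2, ℤ)) = (coc N l hlN x γ : SL(2, ℤ)) := by
  unfold cocZ
  have h := coc_unique 1 l (not_dvd_one_of_prime l) (x := x) (gam := toGamma0One (γ : SL(2, ℤ)))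
    (g' := toGamma0One (coc N l hlN x γ : SL(2, ℤ))) (coc_spec N l hlN x γ)
  rw [h]
  rfl

/-- The correction term: `kfun x γ = (uRep x)⁻¹ * cocZ x γ * uRep (γ̄ • x) * γ⁻¹`. -/
noncomputable def kfun (x : OnePoint (ZMod l)) (γ : SL(2, ℤ)) : SL(2, ℤ) :=
  (uRep l x)⁻¹ * cocZ l x γ * uRep l (redMatrix l γ • x) * γ⁻¹

theorem kfun_mem (M : ℕ) (hl : l ≡ 1 [MOD M]) (x : OnePoint (ZMod l)) (γ : SL(2, ℤ)) :
    kfun l x γ ∈ Gamma M := by
  rw [Gamma_mem']
  have h := coc_map_eq 1 l (not_dvd_one_of_prime l) M hl x (toGamma0One γ)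
  simp only [coe_toGamma0One] at h
  unfold kfun cocZ
  simp only [map_mul, map_inv]
  rw [mul_assoc ((Matrix.SpecialLinearGroup.map (Int.castRingHom (ZMod M))) (uRep l x))⁻¹, h]
  group

theorem kfun_mul (x : OnePoint (ZMod l)) (γ δ : SL(2, ℤ)) :
    kfun l x (γ * δ) = kfun l x γ * (γ * kfun l (redMatrix l γ • x) δ * γ⁻¹) := by
  unfold kfun
  rw [cocZ_mul, redMatrix_mul, mul_smul]
  group

theorem cocZ_eq_kfun (x : OnePoint (ZMod l)) (γ : SL(2, ℤ)) :
    cocZ l x γ = uRep l x * kfun l x γ * γ * (uRep l (redMatrix l γ • x))⁻¹ := by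
  unfold kfun
  group

end CocZ

/-! ### The main theorem -/

section Main

theorem Gamma_le_Gamma0_of_dvd (N : ℕ) {M : ℕ} (hNM : N ∣ M) : Gamma M ≤ Gamma0 N := by
  intro g hg
  rw [Gamma_mem] at hg
  rw [Gamma0_mem]
  have h : ((g 1 0 : ℤ) : ZMod M) = 0 := hg.2.2.1
  rw [ZMod.intCast_zmod_eq_zero_iff_dvd] at h ⊢
  exact dvd_trans (Int.natCast_dvd_natCast.mpr hNM) h

theorem modT_mem_Gamma0 (N : ℕ) : (ModularGroup.T : SL(2, ℤ)) ∈ Gamma0 N := by
  rw [Gamma0_mem]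
  simp [ModularGroup.T]

theorem isPE_modT : IsPE (ModularGroup.T : SL(2, ℤ)) := by
  unfold IsPE
  rw [Matrix.trace_fin_two]
  simp [ModularGroup.T]

variable (N l : ℕ) [NeZero N] [Fact l.Prime] (hlN : ¬ l ∣ N)

/-- **(I4')**: if the restriction to `Γ(M)` of a parabolic character `φ` of `Γ₀(N)` (`N ∣ M`) is
invariant under conjugation by `SL₂(ℤ)`, then `T_l φ = (l + 1) • φ` for every prime `l ∤ N` with
`l ≡ 1 mod M`. -/
theorem heckeHom_eq_smul_of_conjInv (M : ℕ) (hNM : N ∣ M) (hl : l ≡ 1 [MOD M]) {A : Type*}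
    [AddCommGroup A] (φ : Additive (Gamma0 N) →+ A) (hφ : φ ∈ homPE ℤ (Gamma0 N) A)
    (hinv : ∀ (t : SL(2, ℤ)) (g g' : Gamma0 N), (g : SL(2, ℤ)) ∈ Gamma M →
      (g' : SL(2, ℤ)) = t * (g : SL(2, ℤ)) * t⁻¹ →
      φ (Additive.ofMul g') = φ (Additive.ofMul g)) :
    heckeHom N l hlN A φ = (l + 1) • φ := by
  classical
  have hle : Gamma M ≤ Gamma0 N := Gamma_le_Gamma0_of_dvd N hNM
  -- the total extension of `φ` by zero
  set ψ : SL(2, ℤ) → A := fun g =>
    if h : g ∈ Gamma0 N then φ (Additive.ofMul (⟨g, h⟩ : Gamma0 N)) else 0 with hψ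
  have ψ_of_mem : ∀ (g : SL(2, ℤ)) (h : g ∈ Gamma0 N), ψ g = φ (Additive.ofMul ⟨g, h⟩) := by
    intro g h
    simp only [hψ, dif_pos h]
  have ψ_mul : ∀ g h : SL(2, ℤ), g ∈ Gamma0 N → h ∈ Gamma0 N → ψ (g * h) = ψ g + ψ h := by
    intro g h hg hh
    rw [ψ_of_mem _ (mul_mem hg hh), ψ_of_mem _ hg, ψ_of_mem _ hh, ← map_add, ← ofMul_mul]
    rfl
  have ψ_conj : ∀ (t g : SL(2, ℤ)), g ∈ Gamma M → ψ (t * g * t⁻¹) = ψ g := by
    intro t g hg
    have hnorm : t * g * t⁻¹ ∈ Gamma M := (Gamma_normal M).conj_mem g hg t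
    rw [ψ_of_mem _ (hle hnorm), ψ_of_mem _ (hle hg)]
    exact hinv t ⟨g, hle hg⟩ ⟨t * g * t⁻¹, hle hnorm⟩ hg rfl
  -- the homomorphism `C`
  have C_mul : ∀ γ δ : SL(2, ℤ),
      ∑ x : OnePoint (ZMod l), ψ (kfun l x (γ * δ)) =
        ∑ x : OnePoint (ZMod l), ψ (kfun l x γ) + ∑ x : OnePoint (ZMod l), ψ (kfun l x δ) := by
    intro γ δ
    have hterm : ∀ x : OnePoint (ZMod l), ψ (kfun l x (γ * δ)) =
        ψ (kfun l x γ) + ψ (kfun l (redMatrix l γ • x) δ) := by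
      intro x
      have h1 : kfun l x γ ∈ Gamma M := kfun_mem l M hl x γ
      have h2 : kfun l (redMatrix l γ • x) δ ∈ Gamma M := kfun_mem l M hl _ δ
      have h3 : γ * kfun l (redMatrix l γ • x) δ * γ⁻¹ ∈ Gamma M :=
        (Gamma_normal M).conj_mem _ h2 γ
      rw [kfun_mul, ψ_mul _ _ (hle h1) (hle h3), ψ_conj γ _ h2]
    have hperm : ∑ x : OnePoint (ZMod l), ψ (kfun l (redMatrix l γ • x) δ) =
        ∑ x : OnePoint (ZMod l), ψ (kfun l x δ) :=
      Equiv.sum_comp (MulAction.toPerm (redMatrix l γ)) (fun y => ψ (kfun l y δ))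
    rw [Finset.sum_congr rfl fun x _ => hterm x, Finset.sum_add_distrib, hperm]
  -- the Hecke operator in terms of `C`
  have hcard : Fintype.card (OnePoint (ZMod l)) = l + 1 := by
    rw [show Fintype.card (OnePoint (ZMod l)) = Fintype.card (Option (ZMod l)) from rfl,
      Fintype.card_option, ZMod.card]
  have hhecke : ∀ gam : Gamma0 N, heckeHom N l hlN A φ (Additive.ofMul gam) =
      (l + 1) • φ (Additive.ofMul gam) +
        ∑ x : OnePoint (ZMod l), ψ (kfun l x (gam : SL(2, ℤ))) := by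
    intro gam
    rw [heckeHom_apply]
    have hterm : ∀ x : OnePoint (ZMod l), φ (Additive.ofMul (coc N l hlN x gam)) =
        φ (Additive.ofMul (uRepG N l x)) + ψ (kfun l x (gam : SL(2, ℤ))) +
          φ (Additive.ofMul gam) -
          φ (Additive.ofMul (uRepG N l (redMatrix l (gam : SL(2, ℤ)) • x))) := by
      intro x
      have hk : kfun l x (gam : SL(2, ℤ)) ∈ Gamma0 N := hle (kfun_mem l M hl x _)
      have h1 : coc N l hlN x gam =
          uRepG N l x * ⟨kfun l x (gam : SL(2, ℤ)), hk⟩ * gam *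
            (uRepG N l (redMatrix l (gam : SL(2, ℤ)) • x))⁻¹ := by
        apply Subtype.ext
        rw [← cocZ_eq_coc l N hlN x gam, cocZ_eq_kfun]
        rfl
      rw [h1, ofMul_mul, ofMul_mul, ofMul_mul, ofMul_inv, map_add, map_add, map_add, map_neg,
        ψ_of_mem _ hk, sub_eq_add_neg]
    have hperm : ∑ x : OnePoint (ZMod l),
        φ (Additive.ofMul (uRepG N l (redMatrix l (gam : SL(2, ℤ)) • x))) =
        ∑ x : OnePoint (ZMod l), φ (Additive.ofMul (uRepG N l x)) :=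
      Equiv.sum_comp (MulAction.toPerm (redMatrix l (gam : SL(2, ℤ))))
        (fun y => φ (Additive.ofMul (uRepG N l y)))
    rw [Finset.sum_congr rfl fun x _ => hterm x, Finset.sum_sub_distrib, Finset.sum_add_distrib,
      Finset.sum_add_distrib, hperm, Finset.sum_const, Finset.card_univ, hcard]
    abel
  -- `C` kills `T`
  have hCT : ∑ x : OnePoint (ZMod l), ψ (kfun l x ModularGroup.T) = 0 := by
    have hT := hhecke ⟨ModularGroup.T, modT_mem_Gamma0 N⟩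
    have h1 : heckeHom N l hlN A φ (Additive.ofMul ⟨ModularGroup.T, modT_mem_Gamma0 N⟩) = 0 :=
      heckeHom_mem_homPE N l hlN hφ ⟨ModularGroup.T, modT_mem_Gamma0 N⟩ isPE_modT
    have h2 : φ (Additive.ofMul ⟨ModularGroup.T, modT_mem_Gamma0 N⟩) = 0 :=
      hφ ⟨ModularGroup.T, modT_mem_Gamma0 N⟩ isPE_modT
    rw [h1, h2, smul_zero, zero_add] at hT
    exact hT.symm
  have hC : ∀ γ : SL(2, ℤ), ∑ x : OnePoint (ZMod l), ψ (kfun l x γ) = 0 :=
    fun_SL2Z_eq_zero_of_T (fun γ => ∑ x : OnePoint (ZMod l), ψ (kfun l x γ)) C_mul hCT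
  refine AddMonoidHom.ext fun gam => ?_
  obtain ⟨gam, rfl⟩ := Additive.ofMul.surjective gam
  rw [hhecke gam, hC, add_zero]
  rfl

/-- `heckeHom_eq_smul_of_conjInv` with an integer scalar (the shape of `Assembly.IharaEis`). -/
theorem heckeHom_eq_zsmul_of_conjInv (M : ℕ) (hNM : N ∣ M) (hl : l ≡ 1 [MOD M]) {A : Type*}
    [AddCommGroup A] (φ : Additive (Gamma0 N) →+ A) (hφ : φ ∈ homPE ℤ (Gamma0 N) A)
    (hinv : ∀ (t : SL(2, ℤ)) (g g' : Gamma0 N), (g : SL(2, ℤ)) ∈ Gamma M →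
      (g' : SL(2, ℤ)) = t * (g : SL(2, ℤ)) * t⁻¹ →
      φ (Additive.ofMul g') = φ (Additive.ofMul g)) :
    heckeHom N l hlN A φ = ((l : ℤ) + 1) • φ := by
  rw [heckeHom_eq_smul_of_conjInv N l hlN M hNM hl φ hφ hinv,
    show ((l : ℤ) + 1) = ((l + 1 : ℕ) : ℤ) by push_cast; rfl, natCast_zsmul]

end Main

end Fermat.Agent.S41.Ihara
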