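import Mathlib
import Fermat.Agent.S41.Assembly.Defs
import Fermat.Agent.S41.Ihara.Assembly
import Fermat.Agent.S41.Ihara.EisensteinInv
import Fermat.Agent.S41.CSP.Central
import Fermat.Agent.S41.CSP.Sat
import Fermat.Agent.S41.CSP.LevelBridge
import Fermat.Agent.S41.CSP.Unipotent

/-!
# P-S41 (B4), route A: the kernel of `α` is Eisenstein at the primes `l ≡ 1 mod N` (helper62)

Glue of
* the Ihara character `F` of `Γ₀(N)[1/q]` attached to `(φ₁, φ₂) ∈ ker α` (`Ihara/Assembly.lean`),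
* (E): `F` kills the trace-`2` elements (`CSP/Unipotent.lean`),
* centrality, STEP 3: invariance under conjugation by `lowerT 1` (`CSP/Central.lean`, `CSP/Sat.lean`),
* (I4'): `heckeHom_eq_smul_of_conjInv` (`Ihara/EisensteinInv.lean`).

Final export: `Fermat.Agent.S41.Ihara.iharaEis : Assembly.IharaEis N q p N`.
-/

set_option autoImplicit false

namespace Fermat.Agent.S41.Ihara.EisGlue

open CongruenceSubgroup Matrix
open Fermat.Agent.S41.Ihara.Amalgam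
open Fermat.Agent.Gateway.A2 Fermat.Agent.Gateway.HeckeCoh
open Fermat.Agent.S41.CSP
open Fermat.Agent.S41
open scoped MatrixGroups

/-! ### STEP 2 in the shape consumed by STEP 3 -/

theorem satProp {q : ℕ} (hq : 2 ≤ q) : SatProp q := by
  intro b0 hb0 hc
  have hb0' : (b0 : ℤ) ≠ 0 := by exact_mod_cast hb0.ne'
  have hc' : Nat.Coprime q (b0 : ℤ).natAbs := by
    rw [Int.natAbs_natCast]
    exact hc.symm
  obtain ⟨E, hE⟩ := exists_pow_congr_int hq (b0 : ℤ) hb0' hc'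
  refine ⟨E, fun e he x => ?_⟩
  obtain ⟨j, hj⟩ := hE e he x
  refine ⟨j, ?_⟩
  have h := (Int.modEq_iff_dvd.mpr hj).symm
  push_cast
  exact h

/-! ### The symbol attached to a character of `Γ₀(N)[1/q]` -/

section Kap

variable {N q : ℕ} [hq : Fact q.Prime] {B : Type*} [AddCommGroup B]

open Classical in
/-- Extension by zero of (the additive form of) a character of `Γ₀(N)[1/q]`. -/
noncomputable def kap (F : ↥(GammaS N q) →* Multiplicative B) : SL(2, ℚ) → B := fun g =>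
  if h : g ∈ GammaS N q then Multiplicative.toAdd (F ⟨g, h⟩) else 0

theorem kap_of_mem (F : ↥(GammaS N q) →* Multiplicative B) {g : SL(2, ℚ)}
    (h : g ∈ GammaS N q) : kap F g = Multiplicative.toAdd (F ⟨g, h⟩) := by
  unfold kap
  rw [dif_pos h]

theorem kap_mul (F : ↥(GammaS N q) →* Multiplicative B) {g h : SL(2, ℚ)}
    (hg : g ∈ GammaS N q) (hh : h ∈ GammaS N q) : kap F (g * h) = kap F g + kap F h := by
  rw [kap_of_mem F (mul_mem hg hh), kap_of_mem F hg, kap_of_mem F hh, ← toAdd_mul, ← map_mul]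
  rfl

theorem kap_conj (F : ↥(GammaS N q) →* Multiplicative B) {x g : SL(2, ℚ)}
    (hx : x ∈ GammaS N q) (hg : g ∈ GammaS N q) : kap F (x * g * x⁻¹) = kap F g := by
  have hmem : x * g * x⁻¹ ∈ GammaS N q := mul_mem (mul_mem hx hg) (inv_mem hx)
  have e : (⟨x * g * x⁻¹, hmem⟩ : ↥(GammaS N q)) = ⟨x, hx⟩ * ⟨g, hg⟩ * ⟨x, hx⟩⁻¹ := rfl
  have hF : F ⟨x * g * x⁻¹, hmem⟩ = F ⟨g, hg⟩ := by
    rw [e, map_mul, map_mul, map_inv, mul_comm (F ⟨x, hx⟩), mul_assoc, mul_inv_cancel, mul_one]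
  rw [kap_of_mem F hmem, kap_of_mem F hg, hF]

theorem kap_j1 (F : ↥(GammaS N q) →* Multiplicative B) (γ : Gamma0 N) :
    kap F (castQ γ.1) = Multiplicative.toAdd (F (j1 N q γ)) :=
  kap_of_mem F (j1 N q γ).2

theorem kap_j2 (F : ↥(GammaS N q) →* Multiplicative B) (γ : Gamma0 N) :
    kap F (conjD q (castQ γ.1)) = Multiplicative.toAdd (F (j2 N q γ)) :=
  kap_of_mem F (j2 N q γ).2

/-- The symbol of an Ihara character is a symbol of level `N` in the sense of `CSP/Sym.lean`. -/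
theorem isSym_kap (hNq : Nat.Coprime N q) (F : ↥(GammaS N q) →* Multiplicative B)
    (hF : ∀ γ : Gamma0 N, IsPE (γ : SL(2, ℤ)) → F (j1 N q γ) = 1) : IsSym q N (kap F) where
  mul g hg h hh :=
    kap_mul F (Del_le_GammaS hNq (dvd_refl N) hg) (Del_le_GammaS hNq (dvd_refl N) hh)
  unip g hg ht := by
    have hmem : g ∈ GammaS N q := Del_le_GammaS hNq (dvd_refl N) hg
    rw [kap_of_mem F hmem, iharaChar_trace_eq_two F hF hNq ⟨g, hmem⟩ ht]
    rfl

end Kap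

/-! ### The subgroup of `SL₂(ℤ[1/q])` under which a symbol is conjugation invariant -/

section Inv

variable {B : Type*}

/-- The elements `x` of `SL₂(ℤ[1/q])` with `κ (x g x⁻¹) = κ g` for all `g ∈ Γ(M)[1/q]`. -/
def Inv (q M : ℕ) (κ : SL(2, ℚ) → B) : Subgroup SL(2, ℚ) where
  carrier := {x | x ∈ GR q ∧ ∀ g ∈ Del q M, κ (x * g * x⁻¹) = κ g}
  one_mem' := ⟨(GR q).one_mem, fun g _ => by simp⟩
  mul_mem' := by
    rintro x y ⟨hx, hx'⟩ ⟨hy, hy'⟩
    refine ⟨(GR q).mul_mem hx hy, fun g hg => ?_⟩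
    have e : x * y * g * (x * y)⁻¹ = x * (y * g * y⁻¹) * x⁻¹ := by group
    rw [e, hx' _ (conj_mem_Del hy hg), hy' g hg]
  inv_mem' := by
    rintro x ⟨hx, hx'⟩
    refine ⟨(GR q).inv_mem hx, fun g hg => ?_⟩
    have h := hx' _ (conj_mem_Del' hx hg)
    have e : x * (x⁻¹ * g * x) * x⁻¹ = g := by group
    rw [e] at h
    rw [inv_inv]
    exact h.symm

theorem mem_Inv_iff {q M : ℕ} {κ : SL(2, ℚ) → B} {x : SL(2, ℚ)} :
    x ∈ Inv q M κ ↔ x ∈ GR q ∧ ∀ g ∈ Del q M, κ (x * g * x⁻¹) = κ g := Iff.rfl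

end Inv

/-! ### Integral matrices -/

section IntMat

/-- `[[1, 0], [1, 1]] ∈ SL₂(ℤ)`. -/
def modL : SL(2, ℤ) := CSP.lowerT (1 : ℤ)

theorem modS_eq : (ModularGroup.S : SL(2, ℤ)) = ModularGroup.T⁻¹ * modL * ModularGroup.T⁻¹ := by
  decide

theorem castQ_modT : castQ ModularGroup.T = (CSP.upperT (1 : ℚ) : SL(2, ℚ)) := by
  apply ext4 <;> rw [castQ_apply] <;> simp [ModularGroup.T]

theorem castQ_modL : castQ modL = (CSP.lowerT (1 : ℚ) : SL(2, ℚ)) := by
  apply ext4 <;> simp [modL]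

theorem conjD_upperT (q : ℕ) [NeZero q] (t : ℚ) :
    conjD q (CSP.upperT t : SL(2, ℚ)) = CSP.upperT (t / q) := by
  apply ext4 <;> simp

theorem conjD_lowerT (q : ℕ) [NeZero q] (t : ℚ) :
    conjD q (CSP.lowerT t : SL(2, ℚ)) = CSP.lowerT ((q : ℚ) * t) := by
  apply ext4 <;> simp

/-- A subgroup of `SL₂(ℤ)` containing `T` and `L` is everything. -/
theorem eq_top_of_T_L (H : Subgroup SL(2, ℤ)) (hT : ModularGroup.T ∈ H) (hL : modL ∈ H) :
    H = ⊤ := by
  rw [eq_top_iff, ← SpecialLinearGroup.SL2Z_generators, Subgroup.closure_le]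
  rintro x (rfl | rfl)
  · rw [modS_eq]
    exact H.mul_mem (H.mul_mem (H.inv_mem hT) hL) (H.inv_mem hT)
  · exact hT

end IntMat

/-! ### Conjugation invariance of the Ihara symbol -/

section Central

variable {N q : ℕ} [hq : Fact q.Prime] {B : Type*} [AddCommGroup B]

theorem mem_Inv_of_mem_GammaS (hNq : Nat.Coprime N q) (F : ↥(GammaS N q) →* Multiplicative B)
    {x : SL(2, ℚ)} (hx : x ∈ GammaS N q) : x ∈ Inv q N (kap F) :=
  ⟨GammaS_le_GR hNq hx, fun _ hg => kap_conj F hx (Del_le_GammaS hNq (dvd_refl N) hg)⟩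

theorem lowerT_one_mem_Inv (hNq : Nat.Coprime N q) (F : ↥(GammaS N q) →* Multiplicative B)
    (hF : ∀ γ : Gamma0 N, IsPE (γ : SL(2, ℤ)) → F (j1 N q γ) = 1) :
    (CSP.lowerT (1 : ℚ) : SL(2, ℚ)) ∈ Inv q N (kap F) :=
  ⟨lowerT_mem_GR (Rq q).one_mem, fun _ hg =>
    (isSym_kap hNq F hF).conj_lowerT_one_of_sat hq.out hNq (satProp hq.out.two_le) hg⟩

theorem castQ_mem_Inv (hNq : Nat.Coprime N q) (F : ↥(GammaS N q) →* Multiplicative B)
    (hF : ∀ γ : Gamma0 N, IsPE (γ : SL(2, ℤ)) → F (j1 N q γ) = 1) (t : SL(2, ℤ)) :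
    castQ t ∈ Inv q N (kap F) := by
  have htop : (Inv q N (kap F)).comap castQ = ⊤ := by
    apply eq_top_of_T_L
    · rw [Subgroup.mem_comap, castQ_modT]
      exact mem_Inv_of_mem_GammaS hNq F (upperT_mem_GammaS hNq ⟨0, 1, by simp⟩)
    · rw [Subgroup.mem_comap, castQ_modL]
      exact lowerT_one_mem_Inv hNq F hF
  have : t ∈ (Inv q N (kap F)).comap castQ := by
    rw [htop]
    exact Subgroup.mem_top t
  exact this

theorem conjD_castQ_mem_Inv (hNq : Nat.Coprime N q) (F : ↥(GammaS N q) →* Multiplicative B)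
    (hF : ∀ γ : Gamma0 N, IsPE (γ : SL(2, ℤ)) → F (j1 N q γ) = 1) (t : SL(2, ℤ)) :
    conjD q (castQ t) ∈ Inv q N (kap F) := by
  have hq0 : (q : ℚ) ≠ 0 := Nat.cast_ne_zero.mpr hq.out.ne_zero
  have htop : (Inv q N (kap F)).comap ((conjD q).comp castQ) = ⊤ := by
    apply eq_top_of_T_L
    · rw [Subgroup.mem_comap, MonoidHom.comp_apply, castQ_modT, conjD_upperT]
      refine mem_Inv_of_mem_GammaS hNq F (upperT_mem_GammaS hNq ⟨1, 1, ?_⟩)
      rw [pow_one, div_mul_cancel₀ _ hq0]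
      simp
    · rw [Subgroup.mem_comap, MonoidHom.comp_apply, castQ_modL, conjD_lowerT]
      have e : (CSP.lowerT ((q : ℚ) * 1) : SL(2, ℚ)) = (CSP.lowerT (1 : ℚ)) ^ q := by
        rw [← lowerT_nsmul, nsmul_eq_mul]
      rw [e]
      exact (Inv q N (kap F)).pow_mem (lowerT_one_mem_Inv hNq F hF) q
  have : t ∈ (Inv q N (kap F)).comap ((conjD q).comp castQ) := by
    rw [htop]
    exact Subgroup.mem_top t
  exact this

end Central

end Fermat.Agent.S41.Ihara.EisGlue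

namespace Fermat.Agent.S41.Ihara

open CongruenceSubgroup Matrix
open Fermat.Agent.S41.Ihara.Amalgam
open Fermat.Agent.Gateway.A2 Fermat.Agent.Gateway.HeckeCoh
open Fermat.Agent.S41.CSP
open Fermat.Agent.S41
open Fermat.Agent.S41.Ihara.EisGlue
open scoped MatrixGroups

/-- **Ihara's lemma, Eisenstein form.** For `q ∤ N` prime, every pair `(φ₁, φ₂)` of parabolic
characters of `Γ₀(N)` with values in `𝔽_p` and `res₁ φ₁ + res₂ φ₂ = 0` satisfies
`T_l φ_i = (l + 1) φ_i` for all primes `l ∤ N`, `l ≡ 1 mod N`. -/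
theorem iharaEis (N q p : ℕ) [NeZero N] [hq : Fact q.Prime] [Fact p.Prime] (hqN : ¬ q ∣ N) :
    Fermat.Agent.S41.Assembly.IharaEis N q p N := by
  intro φ₁ h₁ φ₂ h₂ hres l _ hlN hl
  have hq0 : q ≠ 0 := hq.out.ne_zero
  have hNq : Nat.Coprime N q := ((Nat.Prime.coprime_iff_not_dvd hq.out).mpr hqN).symm
  obtain ⟨F, hF1, hF2⟩ := exists_iharaChar hNq φ₁ φ₂ hres
  have hF : ∀ γ : Gamma0 N, IsPE (γ : SL(2, ℤ)) → F (j1 N q γ) = 1 := by
    intro γ hγ
    rw [hF1, h₁ γ hγ]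
    rfl
  have hk1 : ∀ γ : Gamma0 N, kap F (castQ γ.1) = φ₁ (Additive.ofMul γ) := by
    intro γ
    rw [kap_j1, hF1]
    rfl
  have hk2 : ∀ γ : Gamma0 N, kap F (conjD q (castQ γ.1)) = -φ₂ (Additive.ofMul γ) := by
    intro γ
    rw [kap_j2, hF2]
    rfl
  have hinv1 : ∀ (t : SL(2, ℤ)) (g g' : Gamma0 N), (g : SL(2, ℤ)) ∈ Gamma N →
      (g' : SL(2, ℤ)) = t * (g : SL(2, ℤ)) * t⁻¹ →
      φ₁ (Additive.ofMul g') = φ₁ (Additive.ofMul g) := by
    intro t g g' hg hg'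
    have hD : castQ g.1 ∈ Del q N := mem_Del_of_isLevel hq0 (isLevel_castQ q hg)
    rw [← hk1, ← hk1, hg', map_mul, map_mul, map_inv]
    exact (castQ_mem_Inv hNq F hF t).2 _ hD
  have hinv2 : ∀ (t : SL(2, ℤ)) (g g' : Gamma0 N), (g : SL(2, ℤ)) ∈ Gamma N →
      (g' : SL(2, ℤ)) = t * (g : SL(2, ℤ)) * t⁻¹ →
      φ₂ (Additive.ofMul g') = φ₂ (Additive.ofMul g) := by
    intro t g g' hg hg'
    have hD : conjD q (castQ g.1) ∈ Del q N :=
      mem_Del_of_isLevel hq0 (isLevel_conjD_castQ q hg)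
    apply neg_injective
    rw [← hk2, ← hk2, hg', map_mul, map_mul, map_inv, map_mul, map_mul, map_inv]
    exact (conjD_castQ_mem_Inv hNq F hF t).2 _ hD
  have e : ∀ φ : Additive (Gamma0 N) →+ ZMod p, ((l : ℤ) + 1) • φ = (l + 1) • φ := by
    intro φ
    rw [← natCast_zsmul]
    push_cast
    rfl
  constructor
  · rw [e, heckeHom_eq_smul_of_conjInv N l hlN N (dvd_refl N) hl φ₁ h₁ hinv1]
  · rw [e, heckeHom_eq_smul_of_conjInv N l hlN N (dvd_refl N) hl φ₂ h₂ hinv2]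

end Fermat.Agent.S41.Ihara
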