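import Mathlib
import Fermat.Agent.S41.Ihara.Assembly
import Fermat.Agent.S41.CSP.Sym
import Fermat.Agent.S41.CSP.LevelBridge

/-!
# P-S41: bridge between the Ihara character and the symbols of `CSP/Sym.lean` (helper4)

* (the bridge `CSP.mem_Del_iff_isLevel`, `CSP.Del_le_GammaS` is in `CSP/LevelBridge.lean`);
* `symOf F` : the extension by zero to `SL(2, ℚ)` of a character `F` of `GammaS N q`
  (in additive notation), and `isSym_symOf` : it is a symbol of level `N` as soon as `F` kills the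
  elements of trace `2`;
* `castQ_mem_GR`, `conjD_castQ_mem_GR`, `symOf_j1`, `symOf_j2`.
-/

set_option autoImplicit false

namespace Fermat.Agent.S41.Ihara

open CongruenceSubgroup Matrix
open Fermat.Agent.S41.Ihara.Amalgam
open Fermat.Agent.S41.CSP
open scoped MatrixGroups

/-! ### Integral matrices in `SL₂(ℤ[1/q])` -/

theorem intCast_mem_Rq (q : ℕ) (m : ℤ) : (m : ℚ) ∈ Rq q := ⟨0, m, by simp⟩

theorem castQ_mem_GR (q : ℕ) (t : SL(2, ℤ)) : castQ t ∈ GR q := by
  intro i j
  rw [castQ_apply]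
  exact intCast_mem_Rq q _

theorem conjD_castQ_mem_GR (q : ℕ) [NeZero q] (t : SL(2, ℤ)) : conjD q (castQ t) ∈ GR q := by
  have hq0 : q ≠ 0 := NeZero.ne q
  intro i j
  fin_cases i <;> fin_cases j
  · show (conjD q (castQ t)) 0 0 ∈ Rq q
    rw [conjD_00, castQ_apply]; exact intCast_mem_Rq q _
  · show (conjD q (castQ t)) 0 1 ∈ Rq q
    rw [conjD_01, castQ_apply, div_eq_mul_inv]
    exact (Rq q).mul_mem (intCast_mem_Rq q _) (inv_q_mem_Rq hq0)
  · show (conjD q (castQ t)) 1 0 ∈ Rq q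
    rw [conjD_10, castQ_apply]
    exact (Rq q).mul_mem (natCast_mem _ q) (intCast_mem_Rq q _)
  · show (conjD q (castQ t)) 1 1 ∈ Rq q
    rw [conjD_11, castQ_apply]; exact intCast_mem_Rq q _

/-! ### The symbol attached to a character of `GammaS N q` -/

section SymOf

variable {N q : ℕ} [hq : Fact q.Prime] {B : Type*} [AddCommGroup B]

open Classical in
/-- Extension by zero (in additive notation) of a character of `GammaS N q` to `SL(2, ℚ)`. -/
noncomputable def symOf (F : ↥(GammaS N q) →* Multiplicative B) : SL(2, ℚ) → B :=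
  fun g => if h : g ∈ GammaS N q then Multiplicative.toAdd (F ⟨g, h⟩) else 0

theorem symOf_of_mem (F : ↥(GammaS N q) →* Multiplicative B) {g : SL(2, ℚ)}
    (h : g ∈ GammaS N q) : symOf F g = Multiplicative.toAdd (F ⟨g, h⟩) := by
  unfold symOf
  rw [dif_pos h]

theorem symOf_apply (F : ↥(GammaS N q) →* Multiplicative B) (g : ↥(GammaS N q)) :
    symOf F (g : SL(2, ℚ)) = Multiplicative.toAdd (F g) :=
  symOf_of_mem F g.2

theorem symOf_mul (F : ↥(GammaS N q) →* Multiplicative B) {g h : SL(2, ℚ)}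
    (hg : g ∈ GammaS N q) (hh : h ∈ GammaS N q) : symOf F (g * h) = symOf F g + symOf F h := by
  rw [symOf_of_mem F hg, symOf_of_mem F hh, symOf_of_mem F ((GammaS N q).mul_mem hg hh)]
  have : (⟨g * h, (GammaS N q).mul_mem hg hh⟩ : ↥(GammaS N q)) = ⟨g, hg⟩ * ⟨h, hh⟩ := rfl
  rw [this, map_mul]
  rfl

/-- The symbol of a character killing the trace-`2` elements. -/
theorem isSym_symOf (hNq : Nat.Coprime N q) (F : ↥(GammaS N q) →* Multiplicative B)
    (hE : ∀ z : ↥(GammaS N q), tr2 (z : SL(2, ℚ)) = 2 → F z = 1) : IsSym q N (symOf F) where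
  mul g hg h hh :=
    symOf_mul F (Del_le_GammaS hNq dvd_rfl hg) (Del_le_GammaS hNq dvd_rfl hh)
  unip g hg ht := by
    have hg' := Del_le_GammaS hNq dvd_rfl hg
    rw [symOf_of_mem F hg', hE ⟨g, hg'⟩ ht]
    rfl

theorem symOf_j1 (F : ↥(GammaS N q) →* Multiplicative B) (γ : ↥(Gamma0 N)) :
    symOf F (castQ γ.1) = Multiplicative.toAdd (F (j1 N q γ)) := by
  rw [← j1_coe N q γ, symOf_apply]

theorem symOf_j2 (F : ↥(GammaS N q) →* Multiplicative B) (γ : ↥(Gamma0 N)) :
    symOf F (conjD q (castQ γ.1)) = Multiplicative.toAdd (F (j2 N q γ)) := by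
  rw [← j2_coe N q γ, symOf_apply]

end SymOf

end Fermat.Agent.S41.Ihara
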